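/-
S59, unit F1 at `p ∣ m`: `j (p τ)` and `j (τ / p)` in the descended field, with a pole of order `M / p`
at the cusps where the width is divisible by `p`.
-/
import Fermat.Agent.Models.Gamma0.DeltaUnit
import Fermat.Agent.Models.Gamma0.Horizontal
import Fermat.Agent.GalRep.Semistable.Bridge

set_option autoImplicit false
set_option linter.style.haveILetI false
set_option linter.unusedSectionVars false

noncomputable section

namespace Fermat.Agent.R59

open UpperHalfPlane CongruenceSubgroup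
open Fermat.Agent.GalRep Fermat.Agent.GalRep.Level
open Fermat.Agent.ModField
open Fermat.Agent.Period (jFun)
open scoped MatrixGroups

theorem lmap_rat_mem_kSer (K : Subfield ℂ) (s : LaurentSeries ℚ) :
    lmap (algebraMap ℚ ℂ) s ∈ kSer K := mem_kSer.mpr fun i => by
  rw [lmap_coeff, eq_ratCast]
  exact SubfieldClass.ratCast_mem K _

variable {O : Type} [CommRing O] [IsDomain O] {M : ℕ} [NeZero M] (E : Emb O M) {p : ℕ} [NeZero p]

theorem gamma_le_gamma0_of_dvd {d : ℕ} (hd : d ∣ M) : Gamma M ≤ Gamma0 d := fun g hg => by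
  have h := congrArg (ZMod.castHom hd (ZMod d)) (Gamma_mem.mp hg).2.2.1
  rw [map_intCast, map_zero] at h
  exact Gamma0_mem.mpr h

/-- `j (p τ)` at level `Γ(M)`. -/
def jpMF (hpM : p ∣ M) : MF M :=
  ⟨jNFun p, GalRep.modFuns_anti (gamma_le_gamma0_of_dvd hpM) (isModFun_jNFun p)⟩

theorem serAlg_jpMF (hpM : p ∣ M) : serAlg M (jpMF hpM) =
    lmap (algebraMap ℚ ℂ)
      (GalRep.expand M (NeZero.ne M) (GalRep.expand p (NeZero.ne p) (ModularCurve.jqModC ℚ))) := by
  rw [lmap_expand, lmap_expand, lmap_jqModC, ← jq_eq_jqModC]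
  have h := (hasQSeries_jNFun p).refine_width one_pos M (NeZero.ne M)
  rw [one_mul] at h
  exact (hasQSeries_serHom (jpMF hpM)).unique (NeZero.pos M) h

/-- `j (p τ)` as a function over the base. -/
def jpB (hpM : p ∣ M) : bddMF E :=
  ⟨jpMF hpM, bdd_of_kSer E (by rw [serAlg_jpMF]; exact lmap_rat_mem_kSer _ _)⟩

theorem serAlg_shift_S_jpMF (hpM : p ∣ M) : serAlg M (shift M ModularGroup.S (jpMF hpM)) =
    lmap (algebraMap ℚ ℂ)
      (GalRep.expand (M / p) (Nat.div_pos (Nat.le_of_dvd (NeZero.pos M) hpM) (NeZero.pos p)).ne'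
        (ModularCurve.jqModC ℚ)) := by
  rw [lmap_expand, lmap_jqModC, ← jq_eq_jqModC]
  refine serAlg_shift_eq ?_
  have heq : !![(p : ℤ), 0; 0, 1] * (ModularGroup.S : Matrix (Fin 2) (Fin 2) ℤ) =
      (ModularGroup.S : Matrix (Fin 2) (Fin 2) ℤ) * !![((1 : ℕ) : ℤ), 0; 0, (p : ℤ)] := by
    ext i j
    fin_cases i <;> fin_cases j <;> simp [ModularGroup.coe_S, Matrix.mul_apply, Fin.sum_univ_two]
  have h := (hasQSeries_jq.comp_upper one_pos 0 (a := 1) one_pos (NeZero.pos p)).refine_width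
    (by rw [one_mul]; exact NeZero.pos p) (M / p)
    (Nat.div_pos (Nat.le_of_dvd (NeZero.pos M) hpM) (NeZero.pos p)).ne'
  rw [one_mul, Nat.mul_div_cancel' hpM] at h
  rw [show (Units.mk0 (Complex.exp (2 * Real.pi * Complex.I * ((0 : ℤ) : ℂ) / ((p * 1 : ℕ) : ℂ)))
      (Complex.exp_ne_zero _) : ℂˣ) = 1 from Units.ext (by simp), twist_one, expand_one] at h
  refine h.congr (.of_forall fun τ => ?_)
  · show _ = jNFun p (ModularGroup.S • τ)
    rw [jNFun, posMat_smul_eq (det_diagN p) (det_upper_pos 0 one_pos (NeZero.pos p))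
      ModularGroup.S ModularGroup.S heq, Period.jFun_smul]

theorem fShift_jpB_of_mem (hpM : p ∣ M) {g : SL(2, ℤ)} (hg : g ∈ Gamma0 p) :
    fShift E g (toFld E (jpB E hpM)) = toFld E (jpB E hpM) := by
  rw [fShift_toFld]
  refine congrArg _ (Subtype.ext (Subtype.ext (funext fun τ => ?_)))
  rw [shift_apply]
  exact (isModFun_jNFun p).invariant g hg τ

section Mem

variable (W : Type) [CommRing W] [Algebra W O] [Algebra W (Fld E)] [IsScalarTower W O (Fld E)]
  (q m : ℕ)

theorem jpB_mem_fld₀ (hpM : p ∣ M) (hpm : p ∣ m) :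
    toFld E (jpB E hpM) ∈ Fld₀ W E q m := by
  refine mem_levelFld.mpr ⟨fun g hg => fShift_jpB_of_mem E hpM ?_, ?_⟩
  · have h := congrArg (ZMod.castHom hpm (ZMod p)) (Gamma_mem.mp (mem_levelG.mp hg).2).2.2.1
    rw [map_intCast, map_zero] at h
    exact Gamma0_mem.mpr h
  · rw [toLS_toFld]
    show serAlg M (jpMF hpM) ∈ _
    rw [serAlg_jpMF]
    exact lmap_rat_mem_kSer _ _

theorem shift_jpB_mem_fld₀ (hpM : p ∣ M) (hpm : p ∣ m) :
    fShift E ModularGroup.S (toFld E (jpB E hpM)) ∈ Fld₀ W E q m := by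
  refine mem_levelFld.mpr ⟨fun g hg => ?_, ?_⟩
  · rw [fShift_fShift, show ModularGroup.S * g =
      (ModularGroup.S * g * ModularGroup.S⁻¹) * ModularGroup.S from
      (inv_mul_cancel_right _ _).symm, ← fShift_fShift]
    refine congrArg _ (fShift_jpB_of_mem E hpM ?_)
    have h := (Gamma_normal m).conj_mem _ (mem_levelG.mp hg).2 ModularGroup.S
    have h2 := congrArg (ZMod.castHom hpm (ZMod p)) (Gamma_mem.mp h).2.2.1
    rw [map_intCast, map_zero] at h2
    exact Gamma0_mem.mpr h2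
  · rw [fShift_toFld, toLS_toFld]
    show serAlg M (shift M ModularGroup.S (jpMF hpM)) ∈ _
    rw [serAlg_shift_S_jpMF]
    exact lmap_rat_mem_kSer _ _

end Mem

theorem gO_unit_series {U : PowerSeries O} (hU : IsUnit U) :
    E.gO U ≠ 0 ∧ (E.gO U).order = 0 := by
  have hU0 : PowerSeries.constantCoeff (PowerSeries.map E.φ U) ≠ 0 :=
    (PowerSeries.isUnit_constantCoeff _ (hU.map (PowerSeries.map E.φ))).ne_zero
  refine ⟨?_, order_ofPS hU0⟩
  show HahnSeries.ofPowerSeries ℤ ℂ (PowerSeries.map E.φ U) ≠ 0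
  exact (map_ne_zero_iff _ HahnSeries.ofPowerSeries_injective).mpr
    fun h => hU0 (by rw [h, map_zero])

/-- Off `Γ₀(p)` the series of `j (p τ)` is a pole of order `M / p` times a unit. -/
theorem exists_series_jpB [Fact p.Prime] (hpM : p ∣ M) {g : SL(2, ℤ)} (hg : g ∉ Gamma0 p) :
    ∃ U : PowerSeries O, IsUnit U ∧ toLS E (fShift E g (toFld E (jpB E hpM))) =
      HahnSeries.single (-((M / p : ℕ) : ℤ)) (1 : ℂ) * E.gO U := by
  obtain ⟨a, d, c, ha, hd, had, heq, hd1⟩ := jNFun_smul_eq (N := p) g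
  obtain rfl : d = p := by
    rcases (Nat.dvd_prime (Fact.out : p.Prime)).mp (had ▸ dvd_mul_left d a) with h | h
    · exact absurd (hd1 h) hg
    · exact h
  obtain rfl : a = 1 := by
    have := Nat.eq_of_mul_eq_mul_right hd (had.trans (one_mul d).symm)
    exact this
  have hM' : M / d ≠ 0 := (Nat.div_pos (Nat.le_of_dvd (NeZero.pos M) hpM) (NeZero.pos d)).ne'
  have h1 := (hasQSeries_jq.comp_upper one_pos c ha hd).refine_width
    (by rw [one_mul]; exact hd) (M / d) hM'
  rw [one_mul, Nat.mul_div_cancel' hpM] at h1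
  simp only [mul_one] at h1
  set ζ : ℂˣ := Units.mk0 (Complex.exp (2 * Real.pi * Complex.I * c / (d : ℕ)))
    (Complex.exp_ne_zero _) with hζ
  have hζM : ζ ^ M = 1 := by
    ext
    simp only [hζ, Units.val_pow_eq_pow_val, Units.val_mk0, Units.val_one]
    obtain ⟨t, ht⟩ := hpM
    rw [← Complex.exp_nat_mul, show (M : ℂ) * (2 * Real.pi * Complex.I * c / d) =
      ((t : ℤ) * c : ℤ) * (2 * Real.pi * Complex.I) by
        have : (d : ℂ) ≠ 0 := Nat.cast_ne_zero.2 hd.ne'
        rw [ht]; push_cast; field_simp]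
    exact Complex.exp_int_mul_two_pi_mul_I _
  set s := GalRep.expand (M / d) hM' (GalRep.expand 1 one_ne_zero (GalRep.twist ζ jq)) with hs
  have hser : toLS E (fShift E g (toFld E (jpB E hpM))) = s := by
    rw [fShift_toFld, toLS_toFld]
    show serAlg M (shift M g (jpMF hpM)) = s
    exact serAlg_shift_eq (φ := jpMF hpM) (h := s)
      (h1.congr (.of_forall fun τ => (heq τ).symm))
  have hgood : GoodSer E s := by
    refine ((GoodSer.twist ?_ hζM).expand one_ne_zero).expand hM'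
    rw [jq_eq_jqModC, ModularCurve.jqModC]
    exact GoodSer.of_int (-1) ModularCurve.constantCoeff_jNum
  obtain ⟨n, U, hU, hn⟩ := hgood
  refine ⟨U, hU, ?_⟩
  rw [hser, hn]
  have hord : s.order = ((M / d : ℕ) : ℤ) * (((1 : ℕ) : ℤ) * -1) := by
    rw [hs, order_expand, order_expand, order_twist, order_jq]
  obtain ⟨hgU, hgo⟩ := gO_unit_series E hU
  rw [hn, HahnSeries.order_mul (HahnSeries.single_ne_zero one_ne_zero) hgU,
    HahnSeries.order_single one_ne_zero,
    hgo] at hord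
  rw [show n = -((M / d : ℕ) : ℤ) by simpa using hord]

theorem order_series_jpB [Fact p.Prime] (hpM : p ∣ M) {g : SL(2, ℤ)} (hg : g ∉ Gamma0 p) :
    (toLS E (fShift E g (toFld E (jpB E hpM)))).order = -((M / p : ℕ) : ℤ) := by
  obtain ⟨U, hU, h⟩ := exists_series_jpB E hpM hg
  obtain ⟨hgU, hgo⟩ := gO_unit_series E hU
  rw [h, HahnSeries.order_mul (HahnSeries.single_ne_zero one_ne_zero) hgU,
    HahnSeries.order_single one_ne_zero, hgo, add_zero]

variable (W : Type) [CommRing W] [Algebra W O] [Algebra W (Fld E)] [IsScalarTower W O (Fld E)]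
  (q m : ℕ)

/-- An element of the descended field with a pole of order `M / p` at any given cusp. -/
theorem exists_cusp_witness [Fact p.Prime] (hpM : p ∣ M) (hpm : p ∣ m) (g : SL(2, ℤ)) :
    ∃ y : Fld₀ W E q m,
      (toLS E (fShift E g (y : Fld E))).order = -((M / p : ℕ) : ℤ) := by
  by_cases hg : g ∈ Gamma0 p
  · refine ⟨⟨_, shift_jpB_mem_fld₀ E W q m hpM hpm⟩, ?_⟩
    show (toLS E (fShift E g (fShift E ModularGroup.S (toFld E (jpB E hpM))))).order = _
    rw [fShift_fShift]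
    refine order_series_jpB E hpM fun h => ?_
    have hS : ((p : ℤ) : ℤ) ∣ g 0 0 := by
      have h' := (ZMod.intCast_zmod_eq_zero_iff_dvd _ _).mp (Gamma0_mem.mp h)
      simpa [Matrix.SpecialLinearGroup.coe_mul, ModularGroup.coe_S, Matrix.mul_apply,
        Fin.sum_univ_two] using h'
    have hdet : g 0 0 * g 1 1 - g 0 1 * g 1 0 = 1 := by
      rw [← Matrix.det_fin_two (g : Matrix (Fin 2) (Fin 2) ℤ)]; exact g.det_coe
    have h1 := (ZMod.intCast_zmod_eq_zero_iff_dvd _ _).mp (Gamma0_mem.mp hg)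
    have h2 : (p : ℤ) ∣ 1 := hdet ▸ dvd_sub (hS.mul_right _) (h1.mul_left _)
    exact (Fact.out : p.Prime).ne_one (Nat.dvd_one.mp (by exact_mod_cast h2))
  · exact ⟨⟨_, jpB_mem_fld₀ E W q m hpM hpm⟩, order_series_jpB E hpM hg⟩

end Fermat.Agent.R59
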