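/-
S59, unit F1 at `p ∣ m`: roots along the horizontal primes with an exponent prime to `p` when `p`
divides the level exactly.
-/
import Fermat.Agent.R59.Mazur.PLevel.Witness
import Fermat.Agent.R59.Mazur.Three.Hor

set_option autoImplicit false
set_option linter.style.haveILetI false
set_option linter.unusedSectionVars false

noncomputable section

namespace Fermat.Agent.R59

open UpperHalfPlane CongruenceSubgroup IsLocalRing
open Fermat.Agent.GalRep Fermat.Agent.GalRep.Level Fermat.Agent.GalRep.Semistable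
open Fermat.Agent.ModField
open Fermat.Agent.NewVec
open Fermat.Agent.GalRep.Model (chartRing)
open Fermat.Agent.Models (HasRootAt)
open Fermat.Agent.Period (jFun)
open scoped MatrixGroups Manifold

variable {A : ValuationSubring (AlgebraicClosure ℚ)} {q m' : ℕ} [Fact q.Prime] [NeZero q]
  [NeZero m']

set_option maxHeartbeats 1600000 in
set_option synthInstance.maxHeartbeats 200000 in
/-- With `p` in the level an exponent divisible by `q m' / p` and by the elliptic exponents serves. -/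
theorem horRoots_pLevel (hA : A.LiesOverPrime q) (hqm' : ¬ q ∣ m') {p : ℕ} [Fact p.Prime] [NeZero p]
    (hpm' : p ∣ m') {D : ℕ} (hMD : q * (m' / p) ∣ D)
    (hell : 6 ∣ D ∨ (2 ∣ D ∧ ∃ r : ℕ, r.Prime ∧ r ∣ m' ∧ r % 3 = 2))
    [IsDiscreteValuationRing (oBase A (q * m'))] :
    HorRoots (wBase A) (embO A (q * m')) q m' p D := by
  obtain ⟨hWdvr, -, -⟩ := wBase_props A (Fact.out : q.Prime) hA
  haveI := hWdvr
  haveI := finite_oBase (A := A) (M := q * m') Fact.out hA rfl hqm'
  have hqO := natCast_mem_maximal (A := A) (M := q * m') Fact.out hA rfl hqm'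
  set E := embO A (q * m') with hE
  intro w hw Q hQ hQ0 hQq x hx a b ha hb hab
  haveI := hQ
  have hx' : (x : Fld E) ≠ 0 := fun h => hx (Subtype.ext h)
  have hgood : ∀ (L : Fld E →+* LaurentSeries ℂ) (g : SL(2, ℤ)) (k i : ℤ), k ≠ 0 →
      k ∣ (D : ℤ) → ((p : ℕ) : ℤ) ∣ (L (fShift E g (x : Fld E))).order →
      (L (fShift E g ((x ^ D : Fld₀ (wBase A) E q m') : Fld E))).order = i * k →
      ((p : ℕ) : ℤ) ∣ i := by
    intro L g k i hk hkD ⟨o, ho⟩ hi
    obtain ⟨l, hl⟩ := hkD
    rw [SubmonoidClass.coe_pow, map_pow, map_pow, HahnSeries.order_pow, nsmul_eq_mul, ho] at hi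
    refine ⟨l * o, mul_right_cancel₀ hk ?_⟩
    rw [← hi, hl]
    ring
  have h2D : 2 ∣ D := hell.elim (fun h => (show (2 : ℕ) ∣ 6 by norm_num).trans h) And.left
  have hne : ∀ c : ℂ, c ≠ 0 → eOf c ∣ D := fun c hc => by
    unfold eOf
    rw [if_neg hc]
    split_ifs
    · exact h2D
    · exact one_dvd _
  have hloc : ∀ (ψ : ℂ → ℂ) (hψ : AnalyticAt ℂ ψ 0) (h0 : ψ 0 ∈ upperHalfPlaneSet)
      (hd : deriv ψ 0 ≠ 0) (g : SL(2, ℤ)),
      ((p : ℕ) : ℤ) ∣ (locEmb hψ h0 hd E (fShift E g (x : Fld E))).order :=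
    fun ψ hψ h0 hd g => dvd_order_div _ hx' hab g (dvd_order_locEmb hψ h0 hd ha g)
      (dvd_order_locEmb hψ h0 hd hb g)
  rcases hw with rfl | rfl
  · refine hasRootAt_of_valuation (fun g => by rw [coe_jF₀, fShift_jF])
      (by rw [coe_jF₀]; exact aeval_jF_injective E)
      (by rw [coe_jF₀]; exact fixedRational_jF E) hqO Q hQ0 hQq (pow_ne_zero _ hx) fun c => ?_
    obtain ⟨τ, rfl⟩ := jFun_surjective c
    obtain ⟨ψ, hψ, h0, hψ0, hd, he⟩ := exists_jCoord (q * m') τ
    refine ⟨locEmb hψ h0 hd E, eOf (jFun τ), ⟨locEmb_algebraMap hψ h0 hd, eOf (jFun τ),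
      PowerSeries.C (jFun τ) + PowerSeries.X ^ eOf (jFun τ), 1, eOf_pos _, dvd_rfl, ?_,
      by rw [add_sub_cancel_left, mul_one], by simp⟩, fun g k hk hkD hk' i hi => ?_⟩
    · rw [coe_jF₀, jF, locEmb_toFld]; exact congrArg _ he
    refine hgood _ g k i hk ?_ (hloc ψ hψ h0 hd g) hi
    rcases eq_or_ne (jFun τ) 0 with hc | hc
    · rcases hell with h6 | ⟨-, r, hr, hrm, hr3⟩
      · refine hkD.trans (Int.natCast_dvd_natCast.mpr (dvd_trans ?_ h6))
        unfold eOf
        split_ifs <;> norm_num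
      · have h4 : ModularForm.E₄ τ = 0 := by
          simpa [jFun, ModularForm.discriminant_ne_zero] using hc
        obtain ⟨y, hy⟩ := exists_simple_zero hA hqm' hr hrm hr3
        have := hk' y
        rw [hy τ g ψ hψ h0 hd hψ0 h4] at this
        exact this.trans (one_dvd _)
    · exact hkD.trans (Int.natCast_dvd_natCast.mpr (hne _ hc))
  · refine hasRootAt_of_valuation (fun g => by rw [coe_inv_jF₀, map_inv₀, fShift_jF])
      (by rw [coe_inv_jF₀]; exact aeval_inv_jF_injective E)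
      (by rw [coe_inv_jF₀]; exact fixedRational_inv_jF E) hqO Q hQ0 hQq (pow_ne_zero _ hx)
      fun c => ?_
    rw [coe_inv_jF₀]
    rcases eq_or_ne c 0 with rfl | hc
    · refine ⟨toLS E, q * m', centred_toLS dvd_rfl, fun g k hk hkD hk' i hi => ?_⟩
      refine hgood _ g k i hk ?_
        (dvd_order_div _ hx' hab g (dvd_order_toLS ha g) (dvd_order_toLS hb g)) hi
      obtain ⟨y, hy⟩ := exists_cusp_witness E (wBase A) q m' (p := p) (hpm'.mul_left q) hpm' g
      have h1 := hk' y
      rw [hy, dvd_neg, Nat.mul_div_assoc q hpm'] at h1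
      exact h1.trans (Int.natCast_dvd_natCast.mpr hMD)
    · obtain ⟨τ, hτ⟩ := jFun_surjective c⁻¹
      obtain ⟨ψ, hψ, h0, -, hd, he⟩ := exists_jCoord (q * m') τ
      rw [hτ] at he
      set e := eOf c⁻¹ with he'
      set u : PowerSeries ℂ := PowerSeries.C c⁻¹ + PowerSeries.X ^ e
      have hcu : PowerSeries.constantCoeff u = c⁻¹ := by
        simp [u, zero_pow (eOf_pos c⁻¹).ne', he']
      have huu : u⁻¹ * u = 1 := PowerSeries.inv_mul_cancel u (hcu ▸ inv_ne_zero hc)
      have hu : locEmb hψ h0 hd E (jF E) = HahnSeries.ofPowerSeries ℤ ℂ u := by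
        rw [jF, locEmb_toFld]; exact congrArg _ he
      refine ⟨locEmb hψ h0 hd E, e, ⟨locEmb_algebraMap hψ h0 hd, e, u⁻¹,
        -(PowerSeries.C c * u⁻¹), eOf_pos _, dvd_rfl, ?_, ?_, ?_⟩, fun g k hk hkD _ i hi =>
          hgood _ g k i hk (hkD.trans (Int.natCast_dvd_natCast.mpr (hne _ (inv_ne_zero hc))))
            (hloc ψ hψ h0 hd g) hi⟩
      · rw [map_inv₀, hu]
        exact (eq_inv_of_mul_eq_one_left (by rw [← map_mul, huu, map_one])).symm
      · have hcc : PowerSeries.C c * PowerSeries.C c⁻¹ = 1 := by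
          rw [← map_mul, mul_inv_cancel₀ hc, map_one]
        have : PowerSeries.C c * u = 1 + PowerSeries.C c * PowerSeries.X ^ e := by
          simp only [u, mul_add, hcc]
        linear_combination PowerSeries.C c * huu - u⁻¹ * this
      · rw [map_neg, neg_ne_zero, map_mul, PowerSeries.constantCoeff_C,
          PowerSeries.constantCoeff_inv, hcu, inv_inv]
        exact mul_ne_zero hc hc

end Fermat.Agent.R59
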