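/-
S59, unit F1 at `p ∣ m`: at a smooth point over the cusps the order of the reduction is measured by
the order of the series at the cusp, and roots force that order to be divisible by the width.
-/
import Fermat.Agent.LL.Mazur.RedOrd
import Fermat.Agent.Models.Gamma0.Cusp
import Fermat.Agent.Models.Gamma0.Horizontal
import Fermat.Agent.Models.Gamma0.DeltaUnit

set_option autoImplicit false
set_option linter.style.haveILetI false
set_option linter.unusedSectionVars false

noncomputable section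

namespace Fermat.Agent.R59

open IsLocalRing
open Fermat.Agent.Models (ChartFibre IsSmoothPoint)

/-! ## Orders of power series -/

section Order

variable {k : Type} [Field k]

/-- The order of a power series as a natural number. -/
abbrev po (f : PowerSeries k) : ℕ := f.order.toNat

theorem exists_po_split {f : PowerSeries k} (hf : f ≠ 0) :
    ∃ u, PowerSeries.constantCoeff u ≠ 0 ∧ f = PowerSeries.X ^ po f * u :=
  ⟨f.divXPowOrder, fun h => hf (PowerSeries.constantCoeff_divXPowOrder_eq_zero_iff.mp h),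
    PowerSeries.X_pow_order_mul_divXPowOrder.symm⟩

theorem po_mul {f g : PowerSeries k} (hf : f ≠ 0) (hg : g ≠ 0) : po (f * g) = po f + po g := by
  rw [po, po, po, PowerSeries.order_mul, ENat.toNat_add (by simpa using hf) (by simpa using hg)]

theorem po_pow {f : PowerSeries k} (hf : f ≠ 0) (n : ℕ) : po (f ^ n) = n * po f := by
  induction n with
  | zero => simp [po]
  | succ n ih => rw [pow_succ, po_mul (pow_ne_zero _ hf) hf, ih]; ring

theorem po_of_const {f : PowerSeries k} (hf : PowerSeries.constantCoeff f ≠ 0) : po f = 0 := by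
  rw [po, PowerSeries.order_zero_of_unit
    (PowerSeries.isUnit_iff_constantCoeff.mpr (isUnit_iff_ne_zero.mpr hf))]
  rfl

theorem po_X_pow (n : ℕ) : po (PowerSeries.X ^ n : PowerSeries k) = n := by
  rw [po, PowerSeries.order_X_pow, ENat.toNat_coe]

end Order

/-! ## Algebra at a smooth point -/

section Algebra

variable {O F : Type} [CommRing O] [Field F] [Algebra O F] {ι : Type}
  {P : ι → ValuationSubring F} {π : O}

/-- The centre of a valuation of the reduced field on a chart. -/
theorem exists_centre {B : Subalgebra O F} {w : F} (hfib : ChartFibre B π P)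
    (hint : ∀ b ∈ B, IsIntegral (Algebra.adjoin O ({w} : Set F)) b) (hwB : w ∈ B) (i : ι)
    {K : Type} [Field K] (ρ : P i →+* K)
    (hker : ∀ z : P i, ρ z = 0 ↔ (z : F) ∈ (P i).nonunits) (Wv : ValuationSubring K)
    (hcst : ∀ (o : O) (ho : algebraMap O F o ∈ P i), ρ ⟨_, ho⟩ ∈ Wv)
    (hw : ∀ hmem : w ∈ P i, ρ ⟨w, hmem⟩ ∈ Wv)
    (hb : ∃ (b : B), ρ ⟨b, hfib.le i _ b.2⟩ ≠ 0 ∧ Wv.valuation (ρ ⟨b, hfib.le i _ b.2⟩) < 1) :
    ∃ m : Ideal B, m.IsMaximal ∧
      (∀ b : B, b ∈ m ↔ Wv.valuation (ρ ⟨b, hfib.le i _ b.2⟩) < 1) ∧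
      ∀ b : B, b ∉ m → Wv.valuation (ρ ⟨b, hfib.le i _ b.2⟩) = 1 := by
  let A₁ := Algebra.adjoin O ({w} : Set F)
  have hle : ∀ {y : F}, y ∈ A₁ → y ∈ P i := fun hy =>
    hfib.le i _ (Algebra.adjoin_le (Set.singleton_subset_iff.mpr hwB) hy)
  let j : B →+* P i := B.val.toRingHom.codRestrict (P i).toSubring fun b => hfib.le i _ b.2
  let j₁ : A₁ →+* P i := A₁.val.toRingHom.codRestrict (P i).toSubring fun a => hle a.2
  have hA : ∀ (y : F) (hy : y ∈ A₁), ρ (j₁ ⟨y, hy⟩) ∈ Wv := by
    intro y hy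
    induction hy using Algebra.adjoin_induction with
    | mem y hy => rcases hy with rfl; exact hw _
    | algebraMap o => exact hcst o _
    | add a b ha hb iha ihb =>
      rw [show (⟨a + b, _⟩ : A₁) = ⟨a, ha⟩ + ⟨b, hb⟩ from rfl, map_add, map_add]
      exact add_mem iha ihb
    | mul a b ha hb iha ihb =>
      rw [show (⟨a * b, _⟩ : A₁) = ⟨a, ha⟩ * ⟨b, hb⟩ from rfl, map_mul, map_mul]
      exact mul_mem iha ihb
  have hBW : ∀ b : B, ρ (j b) ∈ Wv := by
    intro b
    obtain ⟨Q, hQ, hQb⟩ := hint b b.2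
    let g : A₁ →+* Wv := (ρ.comp j₁).codRestrict Wv.toSubring fun a => hA a a.2
    have h1 : Polynomial.eval₂ (ρ.comp j₁) (ρ (j b)) Q = 0 := by
      rw [← Polynomial.hom_eval₂, ← map_zero ρ]
      refine congrArg ρ (Subtype.ext ?_)
      show (P i).subtype (Polynomial.eval₂ j₁ (j b) Q) = 0
      rw [Polynomial.hom_eval₂]
      exact hQb
    have h2 : IsIntegral Wv (ρ (j b)) := ⟨Q.map g, hQ.map _, by
      rw [Polynomial.eval₂_map]; exact h1⟩
    obtain ⟨u, hu⟩ := IsIntegrallyClosed.isIntegral_iff.mp h2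
    exact hu ▸ u.2
  let φ : B →+* Wv := (ρ.comp j).codRestrict Wv.toSubring hBW
  set m := (maximalIdeal Wv).comap φ
  have hlt : ∀ b : B, b ∈ m ↔ Wv.valuation (ρ (j b)) < 1 := fun b =>
    Wv.valuation_lt_one_iff (φ b)
  have hcen : ∀ b : B, (b : F) ∈ (P i).nonunits → b ∈ m := fun b hbn => by
    rw [hlt, (hker (j b)).mpr hbn, map_zero]
    exact zero_lt_one
  obtain ⟨b₀, hb0, hb1⟩ := hb
  have hm : m.IsMaximal := hfib.maximal_above i m inferInstance hcen
    ⟨b₀, (hlt b₀).mpr hb1, fun hn => hb0 ((hker (j b₀)).mpr hn)⟩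
  exact ⟨m, hm, hlt, fun c hc =>
    le_antisymm ((Wv.valuation_le_one_iff _).mpr (hBW c)) (not_lt.mp fun h' => hc ((hlt c).mpr h'))⟩

/-- At a smooth point two specialisations killing the uniformiser have proportional orders. -/
theorem ratio_of_smooth {B : Subalgebra O F} [IsNoetherianRing B] {m : Ideal B} [m.IsMaximal]
    (hsm : IsSmoothPoint B π m) {K : Type} [Field K] (ρ : B →+* K) (Wv : ValuationSubring K)
    (hρπ : ρ (algebraMap O B π) = 0) (hρm : ∀ b, b ∈ m ↔ Wv.valuation (ρ b) < 1)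
    (hρu : ∀ b ∉ m, Wv.valuation (ρ b) = 1) {k : Type} [Field k] (r : B →+* PowerSeries k)
    (hrπ : r (algebraMap O B π) = 0) (hrm : ∀ b, b ∈ m ↔ PowerSeries.constantCoeff (r b) = 0)
    {w : B} (hw : ρ w ≠ 0) (hwm : w ∈ m) (hrw : r w ≠ 0) {b : B} (hb : ρ b ≠ 0) :
    r b ≠ 0 ∧ Wv.valuation (ρ b) ^ po (r w) = Wv.valuation (ρ w) ^ po (r b) := by
  classical
  obtain ⟨x, P', hP', hPm, hπP, hxP, hxm, hgen⟩ := hsm
  let R := Localization.AtPrime m
  haveI : IsNoetherianRing R :=
    IsLocalization.isNoetherianRing m.primeCompl (Localization.AtPrime m) inferInstance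
  let al : B →+* R := algebraMap B R
  have hR := Models.maximalIdeal_eq_span_pair m (hPm hπP) hxm hgen
  have hρs : ∀ s : m.primeCompl, IsUnit (ρ s) := fun s => isUnit_iff_ne_zero.mpr fun h0 => by
    have := hρu _ s.2
    rw [h0, map_zero] at this
    exact zero_ne_one this
  have hrs : ∀ s : m.primeCompl, IsUnit (r s) := fun s =>
    PowerSeries.isUnit_iff_constantCoeff.mpr (isUnit_iff_ne_zero.mpr fun h0 => s.2 ((hrm _).mpr h0))
  let ρ' : R →+* K := IsLocalization.lift (M := m.primeCompl) hρs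
  let r' : R →+* PowerSeries k := IsLocalization.lift (M := m.primeCompl) hrs
  have hρ' : ∀ c, ρ' (al c) = ρ c := fun c => IsLocalization.lift_eq hρs c
  have hr' : ∀ c, r' (al c) = r c := fun c => IsLocalization.lift_eq hrs c
  have hle : ∀ z : R, Wv.valuation (ρ' z) ≤ 1 := fun z => by
    obtain ⟨a, s, rfl⟩ := IsLocalization.exists_mk'_eq m.primeCompl z
    have h1 := congrArg (fun y => Wv.valuation (ρ' y)) (IsLocalization.mk'_spec R a s)
    simp only [map_mul] at h1
    rw [hρ' s, hρu _ s.2, mul_one, hρ'] at h1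
    rw [h1]
    by_cases ha : a ∈ m
    · exact ((hρm a).mp ha).le
    · exact (hρu a ha).le
  have hu1 : ∀ c : R, IsUnit c → Wv.valuation (ρ' c) = 1 := fun c hc => by
    obtain ⟨c, rfl⟩ := hc
    refine le_antisymm (hle _) ?_
    have h1 : Wv.valuation (ρ' (c : R)) * Wv.valuation (ρ' ((c⁻¹ : Rˣ) : R)) = 1 := by
      rw [← map_mul, ← map_mul, Units.mul_inv, map_one, map_one]
    calc (1 : Wv.ValueGroup) = _ := h1.symm
      _ ≤ Wv.valuation (ρ' (c : R)) * 1 := mul_le_mul_right (hle _) _
      _ = _ := mul_one _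
  have hrep : ∀ c : B, ρ c ≠ 0 → ∃ (i : ℕ) (U : PowerSeries k),
      PowerSeries.constantCoeff U ≠ 0 ∧ Wv.valuation (ρ c) = Wv.valuation (ρ x) ^ i ∧
      r c = r x ^ i * U := fun c hc => by
    have hc' : al c ∉ Ideal.span {al (algebraMap O B π)} := fun h => hc (by
      obtain ⟨d, hd⟩ := Ideal.mem_span_singleton.mp h
      have := congrArg ρ' hd
      rwa [map_mul, hρ', hρ', hρπ, zero_mul] at this)
    obtain ⟨i, u, hu, hd⟩ := Models.exists_pow_mod hR hc'
    obtain ⟨d, hd⟩ := Ideal.mem_span_singleton.mp hd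
    rw [sub_eq_iff_eq_add] at hd
    refine ⟨i, r' u, ?_, ?_, ?_⟩
    · exact (PowerSeries.isUnit_constantCoeff _ (hu.map r')).ne_zero
    · have h1 := congrArg ρ' hd
      rw [map_add, map_mul, map_mul, map_pow, hρ', hρ', hρ', hρπ, zero_mul, zero_add] at h1
      rw [h1, map_mul, map_pow, hu1 u hu, mul_one]
    · have h1 := congrArg r' hd
      rwa [map_add, map_mul, map_mul, map_pow, hr', hr', hr', hrπ, zero_mul, zero_add] at h1
  obtain ⟨i, U, hU, hvi, hri⟩ := hrep w hw
  obtain ⟨j, V, hV, hvj, hrj⟩ := hrep b hb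
  have hx : r x ≠ 0 := fun h0 => by
    rcases Nat.eq_zero_or_pos i with rfl | hi
    · rw [pow_zero, one_mul] at hri
      exact hU (hri ▸ (hrm w).mp hwm)
    · rw [hri, h0, zero_pow hi.ne', zero_mul] at hrw
      exact hrw rfl
  have hpo : ∀ (l : ℕ) {U : PowerSeries k}, PowerSeries.constantCoeff U ≠ 0 →
      po (r x ^ l * U) = l * po (r x) := fun l U hU => by
    rw [po_mul (pow_ne_zero _ hx) (fun h => hU (by rw [h, map_zero])), po_pow hx, po_of_const hU,
      add_zero]
  refine ⟨hrj ▸ mul_ne_zero (pow_ne_zero _ hx) (fun h => hV (by rw [h, map_zero])), ?_⟩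
  rw [hrj, hri, hpo _ hV, hpo _ hU, hvj, hvi, ← pow_mul, ← pow_mul]
  congr 1
  ring

end Algebra

/-! ## Roots at the cusp -/

section Twist

open Fermat.Agent.GalRep (twist)
open Fermat.Agent.GalRep.Model (zetaC SeriesField)
open Fermat.Agent.ModField
open Fermat.Agent.CuspPt (zO map_zO rz rz_eq_iff)

variable {O : Type} [CommRing O] [IsDomain O] [IsDiscreteValuationRing O] {M q m : ℕ} [NeZero M]
  (E : Emb O M)

local notation "ι" => HahnSeries.ofPowerSeries ℤ ℂ

theorem gO_injective : Function.Injective E.gO := fun f g h => by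
  rw [Emb.gO, RingHom.comp_apply, RingHom.comp_apply] at h
  exact PowerSeries.map_injective _ E.inj (HahnSeries.ofPowerSeries_injective h)

theorem twist_gO {z : O} {ζ : ℂˣ} (hz : E.φ z = ζ) (f : PowerSeries O) :
    twist ζ (E.gO f) = E.gO (PowerSeries.rescale z f) := by
  ext k
  rw [GalRep.twist_coeff, Emb.gO, RingHom.comp_apply, RingHom.comp_apply]
  by_cases hk : ∃ j : ℕ, (j : ℤ) = k
  · obtain ⟨j, rfl⟩ := hk
    rw [HahnSeries.ofPowerSeries_apply_coeff, HahnSeries.ofPowerSeries_apply_coeff,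
      PowerSeries.coeff_map, PowerSeries.coeff_map, PowerSeries.coeff_rescale, map_mul, map_pow,
      hz, zpow_natCast, Units.val_pow_eq_pow_val]
    exact mul_comm _ _
  · rw [HahnSeries.ofPowerSeries_apply, HahnSeries.ofPowerSeries_apply,
      HahnSeries.embDomain_of_notMem_range, HahnSeries.embDomain_of_notMem_range, zero_mul]
    all_goals rintro ⟨j, hj⟩; exact hk ⟨j, hj⟩

theorem order_gO_of_isUnit {f : PowerSeries O} (hf : IsUnit f) : (E.gO f).order = 0 :=
  order_ofPS (PowerSeries.isUnit_constantCoeff _ (hf.map (PowerSeries.map E.φ))).ne_zero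

theorem zO_pow (a : ℤ) (n : ℕ) : zO E a ^ n = zO E (a * n) :=
  E.inj (by rw [map_pow, map_zO, map_zO, zpow_mul, zpow_natCast])

/-- A root of a series invariant under a translation forces a congruence between the orders. -/
theorem dvd_sub_po_of_twist (hs : CuspPt.Setup O M q m) {p : ℕ} (hp : 0 < p) (h : ℤ) {ζ : ℂˣ}
    (hζ : (ζ : ℂ) = zetaC M ^ h) {G : LaurentSeries ℂ} (hG0 : G ≠ 0) (hG : twist ζ G = G)
    {A B C D : PowerSeries O} (hA : IsUnit A) (hB : IsUnit B)
    (heq : E.gO B * E.gO C ^ p = E.gO A * G ^ p * E.gO D ^ p)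
    (hC : PowerSeries.map (residue O) C ≠ 0) (hD : PowerSeries.map (residue O) D ≠ 0) :
    (m : ℤ) ∣ h * ((po (PowerSeries.map (residue O) C) : ℤ) -
      po (PowerSeries.map (residue O) D)) := by
  set z := zO E h
  have hz : E.φ z = (ζ : ℂ) := by rw [hζ, map_zO]
  set τ := PowerSeries.rescale z
  have hτu : ∀ {f : PowerSeries O}, IsUnit f → IsUnit (τ f) := fun hf => hf.map τ
  have hCne : C ≠ 0 := fun h0 => hC (by rw [h0, map_zero])
  have hDne : D ≠ 0 := fun h0 => hD (by rw [h0, map_zero])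
  have hz0 : z ≠ 0 := fun h0 => by
    rw [h0, map_zero] at hz
    exact ζ.ne_zero hz.symm
  have hτinj : ∀ {f : PowerSeries O}, τ f = 0 → f = 0 := fun {f} hf => PowerSeries.ext fun j => by
    have := congrArg (PowerSeries.coeff j) hf
    rw [PowerSeries.coeff_rescale, map_zero] at this
    rw [map_zero]
    exact (mul_eq_zero.mp this).resolve_left (pow_ne_zero _ hz0)
  have heq' : E.gO (τ B) * E.gO (τ C) ^ p = E.gO (τ A) * G ^ p * E.gO (τ D) ^ p := by
    have := congrArg (twist ζ) heq
    simpa only [map_mul, map_pow, twist_gO E hz, hG] using this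
  have hN : (C * τ D) ^ p * (τ A * B) = (D * τ C) ^ p * (τ B * A) := by
    refine gO_injective E ?_
    simp only [map_mul, map_pow, mul_pow]
    linear_combination (E.gO (τ A) * E.gO (τ D) ^ p) * heq - (E.gO D ^ p * E.gO A) * heq'
  obtain ⟨S, hS⟩ : ∃ S : PowerSeries O, C * τ D = S * (D * τ C) := by
    let al := algebraMap (PowerSeries O) (SeriesField O)
    have hne : al (D * τ C) ≠ 0 :=
      (map_ne_zero_iff _ (IsFractionRing.injective _ _)).mpr
        (mul_ne_zero hDne fun h0 => hCne (hτinj h0))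
    obtain ⟨V, hV⟩ := ((hτu hA).mul hB).exists_right_inv
    have hpow : (al (C * τ D) / al (D * τ C)) ^ p = al (τ B * A * V) := by
      rw [div_pow, div_eq_iff (pow_ne_zero _ hne), ← map_pow, ← map_pow, ← map_mul]
      refine congrArg al ?_
      linear_combination V * hN - (C * τ D) ^ p * hV
    obtain ⟨S, hS⟩ := IsIntegrallyClosed.isIntegral_iff.mp
      (IsIntegral.of_pow hp (hpow ▸ isIntegral_algebraMap) :
        IsIntegral (PowerSeries O) (al (C * τ D) / al (D * τ C)))
    refine ⟨S, IsFractionRing.injective (PowerSeries O) (SeriesField O) ?_⟩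
    rw [map_mul al S, show algebraMap (PowerSeries O) (SeriesField O) S = _ from hS,
      div_mul_cancel₀ _ hne]
  -- the constant term of the ratio is one
  have hgne : ∀ {f : PowerSeries O}, f ≠ 0 → E.gO f ≠ 0 := fun hf =>
    (map_ne_zero_iff _ (gO_injective E)).mpr hf
  set R := G * E.gO D / E.gO C
  have hR0 : R ≠ 0 := div_ne_zero (mul_ne_zero hG0 (hgne hDne)) (hgne hCne)
  have hRp : R ^ p * E.gO A = E.gO B := by
    rw [div_pow, mul_pow, div_mul_eq_mul_div, div_eq_iff (pow_ne_zero _ (hgne hCne))]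
    linear_combination -heq
  have hRord : R.order = 0 := by
    have h1 := congrArg HahnSeries.order hRp
    rw [HahnSeries.order_mul (pow_ne_zero _ hR0) (hgne hA.ne_zero), HahnSeries.order_pow,
      order_gO_of_isUnit E hA, order_gO_of_isUnit E hB, add_zero, nsmul_eq_mul] at h1
    exact (mul_eq_zero.mp h1).resolve_left (by exact_mod_cast hp.ne')
  obtain ⟨u, hu⟩ : ∃ u : PowerSeries ℂ, ι u = R :=
    ⟨psOf ⟨R, (mem_serInt_iff hR0).mpr hRord.ge⟩, coe_psOf _⟩
  have hu0 : PowerSeries.constantCoeff u ≠ 0 := by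
    have := (HahnSeries.coeff_order_eq_zero.not).mpr hR0
    rwa [hRord, ← hu, show (0 : ℤ) = ((0 : ℕ) : ℤ) from rfl, HahnSeries.ofPowerSeries_apply_coeff,
      PowerSeries.coeff_zero_eq_constantCoeff_apply] at this
  have hτR : twist ζ R = E.gO S * R := by
    have h1 := congrArg E.gO hS
    simp only [map_mul] at h1
    have hcτ : E.gO (τ C) ≠ 0 := hgne fun h0 => hCne (hτinj h0)
    rw [map_div₀, map_mul, hG, twist_gO E hz, twist_gO E hz, div_eq_iff hcτ]
    show G * E.gO (τ D) = E.gO S * (G * E.gO D / E.gO C) * E.gO (τ C)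
    rw [mul_div_assoc', div_mul_eq_mul_div, eq_div_iff (hgne hCne)]
    linear_combination G * h1
  have hS0 : PowerSeries.constantCoeff S = 1 := by
    have h1 := congrArg (fun f : LaurentSeries ℂ => f.coeff ((0 : ℕ) : ℤ)) hτR
    rw [GalRep.twist_coeff, ← hu, Emb.gO, RingHom.comp_apply, ← map_mul,
      HahnSeries.ofPowerSeries_apply_coeff, HahnSeries.ofPowerSeries_apply_coeff,
      PowerSeries.coeff_zero_eq_constantCoeff_apply, PowerSeries.coeff_zero_eq_constantCoeff_apply,
      map_mul, Nat.cast_zero, zpow_zero, Units.val_one, mul_one,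
      show PowerSeries.constantCoeff (PowerSeries.map E.φ S) =
        E.φ (PowerSeries.constantCoeff S) by
          rw [← PowerSeries.coeff_zero_eq_constantCoeff_apply, PowerSeries.coeff_map,
            PowerSeries.coeff_zero_eq_constantCoeff_apply]] at h1
    refine E.inj (mul_right_cancel₀ hu0 ?_)
    rw [map_one, one_mul]
    exact h1.symm
  -- the reductions
  have hmr : ∀ f : PowerSeries O, PowerSeries.map (residue O) (τ f) =
      PowerSeries.rescale (rz E h) (PowerSeries.map (residue O) f) := fun f => by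
    ext j
    simp only [PowerSeries.coeff_map, τ, PowerSeries.coeff_rescale, map_mul, map_pow]
    rfl
  have hb := congrArg (PowerSeries.map (residue O)) hS
  simp only [map_mul, hmr] at hb
  obtain ⟨c, hc, ec⟩ := exists_po_split hC
  obtain ⟨d, hd, ed⟩ := exists_po_split hD
  set oc := po (PowerSeries.map (residue O) C)
  set od := po (PowerSeries.map (residue O) D)
  rw [ec, ed] at hb
  simp only [map_mul, map_pow, PowerSeries.rescale_X, mul_pow] at hb
  have hb2 := congrArg PowerSeries.constantCoeff (mul_left_cancel₀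
    (pow_ne_zero (oc + od) PowerSeries.X_ne_zero) (show
      PowerSeries.X ^ (oc + od) *
          (PowerSeries.C (rz E h) ^ od * c * PowerSeries.rescale (rz E h) d) =
        PowerSeries.X ^ (oc + od) * (PowerSeries.map (residue O) S *
          (PowerSeries.C (rz E h) ^ oc * d * PowerSeries.rescale (rz E h) c)) by
      rw [pow_add]; linear_combination hb))
  have hresc : ∀ f : PowerSeries (ResidueField O),
      PowerSeries.constantCoeff (PowerSeries.rescale (rz E h) f) = PowerSeries.constantCoeff f :=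
    fun f => by
      rw [← PowerSeries.coeff_zero_eq_constantCoeff_apply, PowerSeries.coeff_rescale, pow_zero,
        one_mul, PowerSeries.coeff_zero_eq_constantCoeff_apply]
  have hS1 : PowerSeries.constantCoeff (PowerSeries.map (residue O) S) = 1 := by
    rw [← PowerSeries.coeff_zero_eq_constantCoeff_apply, PowerSeries.coeff_map,
      PowerSeries.coeff_zero_eq_constantCoeff_apply, hS0, map_one]
  simp only [map_mul, map_pow, PowerSeries.constantCoeff_C, hresc, hS1, one_mul] at hb2
  have hpw : rz E h ^ od = rz E h ^ oc :=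
    mul_right_cancel₀ (mul_ne_zero hc hd) (by linear_combination hb2)
  rw [rz, ← map_pow, ← map_pow, zO_pow, zO_pow] at hpw
  have := (rz_eq_iff hs E).mp hpw
  rw [show h * ((oc : ℤ) - od) = -(h * od - h * oc) by ring]
  exact this.neg_right

end Twist

end Fermat.Agent.R59
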