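/-
S59, unit F1 at `p ∣ m`: a cusp over a centre of the chart of `1/j`, with the reduced series there.
-/
import Fermat.Agent.R59.Mazur.PLevel.CuspRatio
import Fermat.Agent.R59.Mazur.Gen.Orders

set_option autoImplicit false
set_option linter.style.haveILetI false
set_option linter.unusedSectionVars false

noncomputable section

namespace Fermat.Agent.R59

open UpperHalfPlane CongruenceSubgroup IsLocalRing ModularCurve AlgebraicCurve
open Fermat.Agent.LL.Mazur
open Fermat.Agent.GalRep Fermat.Agent.GalRep.Level Fermat.Agent.GalRep.Semistable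
open Fermat.Agent.ModField
open Fermat.Agent.NewVec
open Fermat.Agent.GalRep.Model (chartRing)
open Fermat.Agent.CuspPt (cB serB evc)
open scoped MatrixGroups Manifold

local notation "ℚb" => AlgebraicClosure ℚ
local notation "κ" A:max => IsLocalRing.ResidueField A

/-- The series at a cusp of an element of the chart of `1/j`. -/
theorem toLS_shift_cB {O : Type} [CommRing O] [IsDomain O] [IsDiscreteValuationRing O] {M : ℕ}
    [NeZero M] (E : Emb O M) (g : SL(2, ℤ)) (b : cB E) :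
    toLS E (fShift E g (b : Fld E)) = E.gO (serB E g b) := by
  rw [← toC_serF, ← ModField.serAt_eq, ← CuspPt.algebraMap_serB]
  exact E.toC_algebraMap _

/-- The lower left entry of a conjugate of a translation. -/
theorem conj_T_pow_mem_gamma0 {N : ℕ} (g : SL(2, ℤ)) (k : ℤ)
    (h : (N : ℤ) ∣ k * (g 1 0 * g 1 0)) : g * ModularGroup.T ^ k * g⁻¹ ∈ Gamma0 N := by
  rw [Gamma0_mem, ZMod.intCast_zmod_eq_zero_iff_dvd]
  have e : ((g * ModularGroup.T ^ k * g⁻¹ : SL(2, ℤ)) 1 0 : ℤ) = -(k * (g 1 0 * g 1 0)) := by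
    simp [Matrix.SpecialLinearGroup.coe_mul, Matrix.SpecialLinearGroup.coe_inv,
      Matrix.adjugate_fin_two, ModularGroup.coe_T_zpow, Matrix.mul_apply, Fin.sum_univ_two]
    ring
  rw [e]
  exact h.neg_right

variable {A : ValuationSubring (AlgebraicClosure ℚ)} {q m' : ℕ} [Fact q.Prime] [NeZero q]
  [NeZero m']

local notation "E₁" => embO A (q * m')
local notation "B₁" => chartRing (wBase A) (jF₀ (wBase A) (embO A (q * m')) q m')⁻¹

set_option maxHeartbeats 6400000 in
set_option synthInstance.maxHeartbeats 400000 in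
/-- A cusp over a maximal ideal of the chart of `1/j` through `q` and `1/j`. -/
theorem exists_cusp_ratio (hA : A.LiesOverPrime q) (hqm' : ¬ q ∣ m') (hm3 : 3 ≤ m')
    [IsDiscreteValuationRing (wBase A)] [IsDiscreteValuationRing (oBase A (q * m'))]
    [Module.Finite (wBase A) (oBase A (q * m'))]
    {π : oBase A (q * m')} (hπ : Irreducible π) (𝔪 : Ideal B₁) [𝔪.IsMaximal]
    (hq𝔪 : algebraMap (wBase A) B₁ (q : wBase A) ∈ 𝔪)
    (hwB : (jF₀ (wBase A) E₁ q m')⁻¹ ∈ B₁) (hw𝔪 : (⟨_, hwB⟩ : B₁) ∈ 𝔪) :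
    ∃ δ : SL(2, ℤ),
      (∀ b : B₁, b ∈ 𝔪 ↔
        PowerSeries.constantCoeff (resB E₁ δ (toB (wBase A) E₁ q m' b)) = 0) ∧
      resB E₁ δ (toB (wBase A) E₁ q m' (algebraMap (wBase A) B₁ (q : wBase A))) = 0 ∧
      resB E₁ δ (toB (wBase A) E₁ q m' ⟨_, hwB⟩) ≠ 0 ∧
      po (resB E₁ δ (toB (wBase A) E₁ q m' ⟨_, hwB⟩)) = q * m' := by
  have hq : q.Prime := Fact.out
  obtain ⟨-, hqW, hWac⟩ := wBase_props A hq hA
  haveI := hWac
  have hs := setup_of_base (O := oBase A (q * m')) (W := wBase A) (q := q) (m := m') (M := q * m')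
    hqW rfl hqm' hm3
  letI : Algebra B₁ (cB E₁) := (toB (wBase A) E₁ q m').toAlgebra
  haveI : Module.Finite B₁ (cB E₁) := finite_toB
  haveI : Algebra.IsIntegral B₁ (cB E₁) := Algebra.IsIntegral.of_finite B₁ (cB E₁)
  obtain ⟨n, hn, hnp⟩ := Ideal.exists_ideal_over_maximal_of_isIntegral (S := cB E₁) 𝔪 (by
    rw [(RingHom.injective_iff_ker_eq_bot (algebraMap B₁ (cB E₁))).1
      (toB_injective (wBase A) E₁ q m')]
    exact bot_le)
  haveI := hn.isPrime
  have hqn : algebraMap (oBase A (q * m')) (cB E₁) (q : oBase A (q * m')) ∈ n := by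
    have h : toB (wBase A) E₁ q m' (algebraMap (wBase A) B₁ (q : wBase A)) ∈ n := by
      rw [← hnp] at hq𝔪; exact hq𝔪
    rwa [toB_algebraMap, map_natCast] at h
  have hqO0 : (q : oBase A (q * m')) ≠ 0 := fun h => by
    have := congrArg (embO A (q * m')).φ h
    rw [map_natCast, map_zero] at this
    exact hq.ne_zero (by exact_mod_cast this)
  obtain ⟨e, ε, hε⟩ := IsDiscreteValuationRing.eq_unit_mul_pow_irreducible hqO0 hπ
  have hπn : algebraMap (oBase A (q * m')) (cB E₁) π ∈ n := by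
    refine Ideal.IsPrime.mem_of_pow_mem ‹n.IsPrime› e ?_
    rw [← map_pow]
    refine (Ideal.unit_mul_mem_iff_mem _ (ε.isUnit.map (algebraMap _ (cB E₁)))).mp ?_
    rw [← map_mul, ← hε]
    exact hqn
  have hwn : CuspPt.wB E₁ ∈ n := by
    rw [← toB_self (wBase A) E₁ q m']
    rw [← hnp] at hw𝔪; exact hw𝔪
  obtain ⟨δ, hδ, -⟩ := exists_cusp_of_point E₁ hs hπ n hπn hwn
  obtain ⟨U₀, hU₀⟩ := CuspPt.exists_wS (O := oBase A (q * m')) (M := q * m')
  have hrw : resB E₁ δ (toB (wBase A) E₁ q m' ⟨_, hwB⟩) = PowerSeries.X ^ (q * m') *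
      PowerSeries.map (residue _) (U₀ : PowerSeries (oBase A (q * m'))) := by
    rw [toB_self, resB, RingHom.comp_apply,
      CuspPt.serB_eq E₁ (x := CuspPt.wB E₁) (f := CuspPt.wS _ (q * m'))
        (by rw [CuspPt.coe_wB]; exact CuspPt.serAt_wF E₁ δ), hU₀, map_mul, map_pow,
      PowerSeries.map_X]
  have hU0c : PowerSeries.constantCoeff
      (PowerSeries.map (residue _) (U₀ : PowerSeries (oBase A (q * m')))) ≠ 0 :=
    (PowerSeries.isUnit_constantCoeff _ (U₀.isUnit.map (PowerSeries.map (residue _)))).ne_zero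
  refine ⟨δ, fun b => ?_, ?_, ?_, ?_⟩
  · rw [constantCoeff_resB, ← hδ, ← hnp]
    exact Iff.rfl
  · rw [toB_algebraMap, map_natCast (algebraMap (wBase A) (oBase A (q * m'))), resB,
      RingHom.comp_apply, CuspPt.serB_algebraMap, PowerSeries.map_C,
      (residue_eq_zero_iff _).mpr hs.mem, map_zero]
  · rw [hrw]
    exact mul_ne_zero (pow_ne_zero _ PowerSeries.X_ne_zero) fun h => hU0c (by rw [h, map_zero])
  · rw [hrw, po_mul (pow_ne_zero _ PowerSeries.X_ne_zero) (fun h => hU0c (by rw [h, map_zero])),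
      po_X_pow, po_of_const hU0c, add_zero]

end Fermat.Agent.R59
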