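/-
S59, unit F1 at `p ∣ m`: the two kinds of cusps.  Either the width is prime to `p`, and the order of a
root is divisible by `p`, or `j (p τ)` has a pole of order `M / p`.
-/
import Fermat.Agent.R59.Mazur.PLevel.CuspPoint
import Fermat.Agent.R59.Mazur.PLevel.Witness

set_option autoImplicit false
set_option linter.style.haveILetI false
set_option linter.unusedSectionVars false

noncomputable section

namespace Fermat.Agent.R59

open UpperHalfPlane CongruenceSubgroup IsLocalRing ModularCurve AlgebraicCurve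
open Fermat.Agent.LL.Mazur
open Fermat.Agent.GalRep Fermat.Agent.GalRep.Level Fermat.Agent.GalRep.Semistable
open Fermat.Agent.ModField
open Fermat.Agent.NewVec
open Fermat.Agent.GalRep.Model (zetaC)
open Fermat.Agent.CuspPt (cB serB evc)
open scoped MatrixGroups Manifold

variable {O : Type} [CommRing O] [IsDomain O] [IsDiscreteValuationRing O] {M : ℕ} [NeZero M]
  (E : Emb O M) {p : ℕ} [Fact p.Prime] [NeZero p]

set_option maxHeartbeats 1600000 in
/-- Where the width is divisible by `p` the function `j (p τ)` has a pole of order `M / p`. -/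
theorem po_jpB_shift (hpM : p ∣ M) {δ : SL(2, ℤ)} (hδ : ¬ (p : ℤ) ∣ δ 1 0) {u w : cB E}
    (h : (u : Fld E) = toFld E (jpB E hpM) * (w : Fld E))
    (hu : resB E δ u ≠ 0) (hw : resB E δ w ≠ 0) :
    M / p + po (resB E δ u) = po (resB E δ w) := by
  obtain ⟨U, hU, hser⟩ := exists_series_jpB E hpM (g := δ) fun h' =>
    hδ ((ZMod.intCast_zmod_eq_zero_iff_dvd _ _).mp (Gamma0_mem.mp h'))
  have h4 : PowerSeries.X ^ (M / p) * serB E δ u = U * serB E δ w := by
    refine gO_injective E ?_
    rw [map_mul, map_mul, ← toLS_shift_cB, ← toLS_shift_cB, h, map_mul, map_mul, hser, ← mul_assoc,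
      ← mul_assoc]
    congr 1
    rw [Emb.gO, RingHom.comp_apply, map_pow, PowerSeries.map_X, map_pow,
      HahnSeries.ofPowerSeries_X, HahnSeries.single_pow, one_pow, nsmul_eq_mul, mul_one,
      HahnSeries.single_mul_single, one_mul, add_neg_cancel, HahnSeries.single_zero_one, one_mul]
  have h5 : PowerSeries.X ^ (M / p) * resB E δ u = PowerSeries.map (residue O) U * resB E δ w := by
    have h5 := congrArg (PowerSeries.map (residue O)) h4
    rwa [map_mul, map_mul, map_pow, PowerSeries.map_X] at h5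
  have hUc : PowerSeries.constantCoeff (PowerSeries.map (residue O) U) ≠ 0 :=
    (PowerSeries.isUnit_constantCoeff _ (hU.map (PowerSeries.map (residue _)))).ne_zero
  have h7 := congrArg po h5
  rwa [po_mul (pow_ne_zero _ PowerSeries.X_ne_zero) hu,
    po_mul (fun h0 => hUc (by rw [h0, map_zero])) hw, po_X_pow, po_of_const hUc, zero_add] at h7

set_option maxHeartbeats 1600000 in
/-- Translations fixing the function make the order of a root divisible. -/
theorem dvd_width_po {q m : ℕ} (hs : CuspPt.Setup O M q m) {N : ℕ} [NeZero N] (hN : N ∣ M)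
    {χ : ParHom N (ZMod p)} {F : ℍ → ℂ} (hF : IsRepG (Gamma0 N) p χ F) {s : ℂ} (hs0 : s ≠ 0)
    {bx : bddMF E} (hbx : ((bx : MF M) : ℍ → ℂ) = fun τ => s * F τ ^ p) {δ : SL(2, ℤ)} {k : ℕ}
    (hT : δ * ModularGroup.T ^ (k : ℤ) * δ⁻¹ ∈ Gamma0 N) {a b c d : cB E}
    (ha : PowerSeries.constantCoeff (resB E δ a) ≠ 0)
    (hb : PowerSeries.constantCoeff (resB E δ b) ≠ 0)
    (hc : resB E δ c ≠ 0) (hd : resB E δ d ≠ 0)
    (h : (b : Fld E) * (c : Fld E) ^ p = (a : Fld E) * toFld E bx * (d : Fld E) ^ p) :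
    (m : ℤ) ∣ k * ((po (resB E δ c) : ℤ) - po (resB E δ d)) := by
  have hp : p.Prime := Fact.out
  obtain ⟨s₀, hs₀⟩ := IsAlgClosed.exists_pow_nat_eq s hp.pos
  have hs00 : s₀ ≠ 0 := fun h => hs0 (by rw [← hs₀, h, zero_pow hp.ne_zero])
  obtain ⟨G, hG, hG0⟩ := (hF.const_mul hs00).exists_series ((isLevel_gamma0 N).of_dvd hN) δ
  set ζ : ℂˣ := Units.mk0 (zetaC M ^ (k : ℤ)) (zpow_ne_zero _ (Complex.exp_ne_zero _))
  have hGT : twist ζ G = G := twist_eq_of_periodic (NeZero.pos _) hG k ζ (by
      show zetaC M ^ (k : ℤ) = _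
      rw [GalRep.Model.zetaC, ← Complex.exp_int_mul]
      congr 1
      ring)
    fun τ => (hF.const_mul hs00).periodic δ k hT τ
  have hxser : toLS E (fShift E δ (toFld E bx)) = G ^ p := by
    rw [fShift_toFld, toLS_toFld]
    refine serAlg_shift_eq (φ := (bx : MF M)) ((hG.pow p).congr (.of_forall fun τ => ?_))
    rw [congrFun hbx (δ • τ), Pi.pow_apply, mul_pow, hs₀]
  have hLeq : E.gO (serB E δ b) * E.gO (serB E δ c) ^ p =
      E.gO (serB E δ a) * G ^ p * E.gO (serB E δ d) ^ p := by
    have h2 := congrArg (fun u : Fld E => toLS E (fShift E δ u)) h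
    simp only [map_mul, map_pow] at h2
    rw [hxser, toLS_shift_cB, toLS_shift_cB, toLS_shift_cB, toLS_shift_cB] at h2
    exact h2
  have hunitS : ∀ u : cB E, PowerSeries.constantCoeff (resB E δ u) ≠ 0 → IsUnit (serB E δ u) :=
    fun u hu => by
      rw [PowerSeries.isUnit_iff_constantCoeff]
      refine (IsLocalRing.residue_ne_zero_iff_isUnit _).mp fun h => hu ?_
      rw [constantCoeff_resB]
      exact h
  exact dvd_sub_po_of_twist E hs hp.pos (k : ℤ) (ζ := ζ) rfl hG0 hGT (hunitS a ha)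
    (hunitS b hb) hLeq hc hd

end Fermat.Agent.R59
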