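/-
S59, unit F1 at `p ∣ m`: the reduction on the component over infinity, with its values at functions
with integral series.
-/
import Fermat.Agent.R59.Mazur.Gen.Orders

set_option autoImplicit false
set_option linter.style.haveILetI false
set_option linter.unusedSectionVars false

noncomputable section

namespace Fermat.Agent.R59

open UpperHalfPlane CongruenceSubgroup IsLocalRing ModularCurve AlgebraicCurve
open Fermat.Agent.LL.Mazur
open Fermat.Agent.GalRep Fermat.Agent.GalRep.Level Fermat.Agent.GalRep.Semistable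
open Fermat.Agent.ModField
open Fermat.Agent.NewVec
open Fermat.Agent.MCurve.Spec (redFld C_mem_redFld)
open Fermat.Agent.GalRep.InertiaBase (rBase rFld rUnif embR rTop wTop totRam embO_K_le
  toLS_algebraMap_top rBase_dvr)
open Fermat.Agent.GalRep.Model (chartRing zetaC SeriesField)
open Fermat.Agent.Models (HasRootAt IsU)
open Fermat.Agent.CuspPt (cB serB evc)
open scoped MatrixGroups Manifold

local notation "ℚb" => AlgebraicClosure ℚ
local notation "κ" A:max => IsLocalRing.ResidueField A

variable {A : ValuationSubring (AlgebraicClosure ℚ)} {p q m m' : ℕ} [Fact p.Prime] [Fact q.Prime]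
  [NeZero p] [NeZero q] [NeZero m] [NeZero m']

/-- `j` is not zero. -/
theorem jqModC_ne_zero' (k : Type) [Field k] : jqModC k ≠ 0 := fun h => by
  have h1 := ModularCurve.coeff_jqModC_neg_one k
  rw [h, HahnSeries.coeff_zero] at h1
  exact zero_ne_one h1

set_option maxHeartbeats 2000000 in
set_option synthInstance.maxHeartbeats 400000 in
/-- The reduction on the component over infinity. -/
theorem exists_infComp (hA : A.LiesOverPrime q) (hqm' : ¬ q ∣ m')
    (Lv : Fermat.Agent.GalRep.Model.Lev m') (hpts : ChartsSemi A q m')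
    [Fact (IsUnit (m' : A))] [IsDiscreteValuationRing (wBase A)]
    [IsDiscreteValuationRing (oBase A (q * m'))] {π : oBase A (q * m')} (hπ : Irreducible π) :
    ∃ (res : wBase A →+* κ A) (ρ : twoP (wBase A) (embO A (q * m')) q m' hπ false →+* redFld m' A),
      (∀ z, ρ z = 0 ↔ (z : Fld₀ (wBase A) (embO A (q * m')) q m') ∈
        (twoP (wBase A) (embO A (q * m')) q m' hπ false).nonunits) ∧
      (∀ o (ho : algebraMap (wBase A) _ o ∈ twoP (wBase A) (embO A (q * m')) q m' hπ false),
        (ρ ⟨_, ho⟩ : LaurentSeries (κ A)) = HahnSeries.C (res o)) ∧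
      (∀ hj : jF₀ (wBase A) (embO A (q * m')) q m' ∈
          twoP (wBase A) (embO A (q * m')) q m' hπ false,
        (ρ ⟨_, hj⟩ : LaurentSeries (κ A)) = qExpand (κ A) m' (jqModC (κ A))) ∧
      ∀ (b : bddMF (embO A (q * m')))
        (hb : toFld (embO A (q * m')) b ∈ Fld₀ (wBase A) (embO A (q * m')) q m')
        (gz : LaurentSeries ℚb) (Y : LaurentSeries (κ A)),
        serAlg (q * m') (b : MF (q * m')) = seriesToC (expand (q * m') (NeZero.ne _) gz) →
        HasRed A gz Y → Y ≠ 0 → (∀ i, FixedConst A (gz.coeff i)) →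
        ∃ hz : (⟨_, hb⟩ : Fld₀ (wBase A) (embO A (q * m')) q m') ∈
            twoP (wBase A) (embO A (q * m')) q m' hπ false,
          (ρ ⟨_, hz⟩ : LaurentSeries (κ A)) = qExpand (κ A) m' Y := by
  classical
  have hq : q.Prime := Fact.out
  haveI := GalRep.charP_residue (A := A) hq hA
  obtain ⟨-, hqW, hWac⟩ := wBase_props A hq hA
  haveI := hWac
  haveI := finite_oBase (A := A) (M := q * m') hq hA rfl hqm'
  let E := embO A (q * m')
  have hψ := constMap_oBase (A := A) (M := q * m') hπ.maximalIdeal_eq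
  let L := IntermediateField.adjoin ℚ ({zetaQ (q * m')} : Set ℚb)
  haveI : FiniteDimensional ℚ L := WildModel.finite_adjoin_zetaQ _
  haveI : Normal ℚ L := WildModel.normal_adjoin_zetaQ _
  have hζ : zetaQ (q * m') ∈ L := IntermediateField.mem_adjoin_simple_self ℚ _
  haveI := (rBase_dvr (L := L) hq hA).1
  have hw := WildModel.isWildModel hq hA hqm' hζ hpts
  let iA : rBase A L →+* A := cutHom (A := A) (algebraMap (rFld A L) ℚb)
  haveI : IsLocalHom iA := ⟨fun o ho => (isUnit_cut_iff _ o).mpr ((A.valuation_eq_one_iff _).mp ho)⟩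
  obtain ⟨ρ, hker, hcst, hj, hK, hρ⟩ := exists_redComp_lev A iA (fun o => rfl) rfl hqm' Lv hw
  let res : wBase A →+* κ A := ((residue A).comp iA).comp (algebraMap (wBase A) (rBase A L))
  let E' := embR A L hζ
  haveI := GalRep.InertiaBase.isAlgClosed_rBase (L := L) hq hA
  have hPiff := algebraMap_mem_twoP_iff (E' := E') (q := q) (m := m') hqW
    (fun z => toLS_algebraMap_top z) (embO_K_le hζ) (WildModel.embO_value hζ)
    (totRam (hζ := hζ) rfl hq hA) rfl hπ (WildModel.irreducible_rUnif hq hA)
  let P₀ := twoP (wBase A) E q m' hπ false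
  let up : P₀ →+* twoP (rBase A L) E' q m' (WildModel.irreducible_rUnif hq hA) false :=
    ((algebraMap (wTop A (q * m') q m') (rTop A L hζ q m')).comp P₀.subtype).codRestrict
      (twoP (rBase A L) E' q m' (WildModel.irreducible_rUnif hq hA) false).toSubring
      fun z => (hPiff false _).mpr z.2
  let ρW : P₀ →+* redFld m' A := (ρ.comp up).codRestrict (redFld m' A) fun z => hK (up z)
  have hkerW : ∀ z : P₀, ρW z = 0 ↔ (z : Fld₀ (wBase A) E q m') ∈ P₀.nonunits := fun z => by
    rw [← Models.nonunits_of_comap (i := false) (fun i w => hPiff i w)]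
    exact ⟨fun h => (hker (up z)).mp (congrArg Subtype.val h),
      fun h => Subtype.ext ((hker (up z)).mpr h)⟩
  have hcstW : ∀ (o : wBase A) (ho : algebraMap (wBase A) (Fld₀ (wBase A) E q m') o ∈ P₀),
      (ρW ⟨_, ho⟩ : LaurentSeries (κ A)) = HahnSeries.C (res o) := fun o ho => by
    refine (congrArg (fun z => ρ z) (Subtype.ext ?_ : up ⟨_, ho⟩ =
      ⟨algebraMap (rBase A L) _ (algebraMap (wBase A) (rBase A L) o),
        hw.algebraMap_mem false _⟩)).trans (hcst _ _)
    show algebraMap (wTop A (q * m') q m') (rTop A L hζ q m') (algebraMap (wBase A) _ o) = _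
    rw [← IsScalarTower.algebraMap_apply, IsScalarTower.algebraMap_apply (wBase A) (rBase A L)]
  refine ⟨res, ρW, hkerW, hcstW, fun hwP => ?_, fun b hb gz Y hser' hgY hYne hfix0 => ?_⟩
  · have hjj : algebraMap (wTop A (q * m') q m') (rTop A L hζ q m') (jF₀ (wBase A) E q m') =
        jF₀ (rBase A L) E' q m' := algebraMap_jF₀ fun z => toLS_algebraMap_top z
    exact (congrArg (fun z => ρ z) (Subtype.ext hjj : up ⟨_, hwP⟩ =
      ⟨jF₀ (rBase A L) E' q m', hjj ▸ (up ⟨_, hwP⟩).2⟩)).trans (hj _)
  · have hY' := hgY.expand (q * m') (NeZero.ne _)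
    have hred1 : RedAt A (q * m') ((b : MF (q * m')) : ℍ → ℂ) 1
        (expand (q * m') (NeZero.ne _) Y) := by
      refine ⟨_, ?_, hY'⟩
      rw [← hser']
      exact (hasQSeries_serHom (b : MF (q * m'))).congr (.of_forall fun τ => by rw [one_smul])
    have hbP : (⟨_, hb⟩ : Fld₀ (wBase A) E q m') ∈ P₀ := ((isU_comap_iff _ _).mpr
      (rs_eq_of_redAt hψ hπ (δ := 1) (X := b) (Y := b) hred1 hred1
        ((map_ne_zero_iff _ (GalRep.expand_injective _ _)).mpr hYne)).1).1
    refine ⟨hbP, ?_⟩
    have hfix : ∀ i, (expand (q * m') (NeZero.ne _) gz).coeff i ∈ inertiaFld A := fun i => by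
      by_cases hi : ((q * m' : ℕ) : ℤ) ∣ i
      · obtain ⟨j, rfl⟩ := hi
        rw [expand_coeff_mul]
        exact (mem_inertiaFld A).mpr (hfix0 j)
      · rw [expand_coeff_of_not_dvd _ _ _ _ hi]
        exact zero_mem _
    let s₀ : LaurentSeries (wBase A) :=
      ⟨fun i => ⟨⟨(expand (q * m') (NeZero.ne _) gz).coeff i, hfix i⟩, (hY' i).1⟩,
        (expand (q * m') (NeZero.ne _) gz).isPWO_support.mono
          fun i h0 h1 => h0 (Subtype.ext (Subtype.ext h1))⟩
    have h1 := hρ (up ⟨_, hbP⟩) (lmap (algebraMap (wBase A) (rBase A L)) s₀) (by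
      show _ = toLS E' ((algebraMap (wTop A (q * m') q m') (rTop A L hζ q m') ⟨_, hb⟩ :
        rTop A L hζ q m') : Fld E')
      rw [toLS_algebraMap_top]
      show _ = toLS E (toFld E b)
      rw [toLS_toFld, hser', seriesToC_eq_lmap]
      ext i
      rfl)
    have h2 : lmap ((residue A).comp iA) (lmap (algebraMap (wBase A) (rBase A L)) s₀) =
        expand (q * m') (NeZero.ne _) Y := by
      ext i
      exact (hY' i).2
    rw [h2, ← MCurve.qExpand_eq_expand (q * m'), ← MCurve.qExpand_eq_expand q,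
      ← ModularCurve.qExpand_qExpand] at h1
    exact ModularCurve.qExpand_injective q h1

end Fermat.Agent.R59
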