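/-
S59, unit F1 at `p ∣ m`: the scaled power of a Kummer function has `p`-th roots at all points of the
chart of `1/j`.
-/
import Fermat.Agent.R59.Mazur.Gen.Orders

set_option autoImplicit false
set_option linter.style.haveILetI false
set_option linter.unusedSectionVars false

noncomputable section

namespace Fermat.Agent.R59

open UpperHalfPlane CongruenceSubgroup IsLocalRing ModularCurve AlgebraicCurve
open Fermat.Agent.LL.Mazur
open Fermat.Agent.GalRep Fermat.Agent.GalRep.Level Fermat.Agent.GalRep.Semistable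
open Fermat.Agent.ModField
open Fermat.Agent.NewVec
open Fermat.Agent.GalRep.Model (chartRing)
open Fermat.Agent.Models (HasRootAt IsU)
open scoped MatrixGroups Manifold

local notation "ℚb" => AlgebraicClosure ℚ
local notation "κ" A:max => IsLocalRing.ResidueField A

variable {A : ValuationSubring (AlgebraicClosure ℚ)} {p q m m' : ℕ} [Fact p.Prime] [Fact q.Prime]
  [NeZero p] [NeZero q] [NeZero m] [NeZero m']

set_option maxHeartbeats 4000000 in
set_option synthInstance.maxHeartbeats 400000 in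
/-- Roots of the scaled power at the points of the chart of `1/j`. -/
theorem exists_root_chartInv (hA : A.LiesOverPrime q) (hqm' : ¬ q ∣ m') (hmm : m ∣ m')
    (hpts : ChartsSemi A q m') {D : ℕ} (hD : D.Coprime p)
    (hhor : ∀ [IsDiscreteValuationRing (oBase A (q * m'))],
      HorRoots (wBase A) (embO A (q * m')) q m' p D)
    [IsDiscreteValuationRing (wBase A)] [IsDiscreteValuationRing (oBase A (q * m'))]
    {π : oBase A (q * m')} (hπ : Irreducible π)
    {χ : ParHom (q * m) (ZMod p)} {F : ℍ → ℂ} {φ : MF (q * m)}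
    (hF : IsRepG (Gamma0 (q * m)) p χ F) (hφ : (φ : ℍ → ℂ) = F ^ p) (hφ0 : φ ≠ 0)
    (hi : Inv0 (q * m) (φ : ℍ → ℂ)) (ha : AlgMF φ) (hf : InertiaFix A φ) (hr : HasPowRed A p φ)
    {r : ℚb} (hr0 : r ≠ 0) (hrf : FixedConst A r) {g : LaurentSeries ℚb}
    (hg : HasQSeries 1 (fun τ => qbarToC r * (φ : ℍ → ℂ) τ) (seriesToC g))
    (y : modularFunctionFieldFullC (κ A) m) (hy : HasRed A g (y : LaurentSeries (κ A))) (hy0 : y ≠ 0) :
    ∃ (bx : bddMF (embO A (q * m')))
      (hx : toFld (embO A (q * m')) bx ∈ Fld₀ (wBase A) (embO A (q * m')) q m'),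
      ((bx : MF (q * m')) : ℍ → ℂ) = (fun τ => qbarToC r * (φ : ℍ → ℂ) τ) ∧
      serAlg (q * m') (bx : MF (q * m')) = seriesToC (expand (q * m') (NeZero.ne _) g) ∧
      (∀ i, FixedConst A (g.coeff i)) ∧
      (⟨_, hx⟩ : Fld₀ (wBase A) (embO A (q * m')) q m') ≠ 0 ∧
      ∀ 𝔪 : Ideal (chartRing (wBase A) (jF₀ (wBase A) (embO A (q * m')) q m')⁻¹), 𝔪.IsMaximal →
        HasRootAt (chartRing (wBase A) (jF₀ (wBase A) (embO A (q * m')) q m')⁻¹) p
          (⟨_, hx⟩ : Fld₀ (wBase A) (embO A (q * m')) q m') 𝔪 := by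
  classical
  have hq : q.Prime := Fact.out
  have hp : p.Prime := Fact.out
  haveI := GalRep.charP_residue (A := A) hq hA
  obtain ⟨-, hqW, hWac⟩ := wBase_props A hq hA
  haveI := hWac
  haveI := finite_oBase (A := A) (M := q * m') hq hA rfl hqm'
  let E := embO A (q * m')
  have hψ := constMap_oBase (A := A) (M := q * m') hπ.maximalIdeal_eq
  have hW := hasFixedConsts_oBase (A := A) (M := q * m')
  have hco : Nat.Coprime q m' := hq.coprime_iff_not_dvd.mpr hqm'
  have hd : q * m ∣ q * m' := mul_dvd_mul_left q hmm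
  -- the scaled function at the level of the model
  let φ' : MF (q * m') := cMF (q * m') r * liftLvl hd φ
  have hi' : Inv0 (q * m') (φ' : ℍ → ℂ) := inv0_cMF_mul r (inv0_liftLvl hd hi)
  have ha' : AlgMF φ' := (algMF_cMF r).mul (algMF_liftLvl hd ha)
  have hf' : InertiaFix A φ' := inertiaFix_cMF_mul hrf (inertiaFix_liftLvl hd hf)
  have hφc : (φ' : ℍ → ℂ) = fun τ => qbarToC r * (φ : ℍ → ℂ) τ := rfl
  let bx : bddMF E := ⟨φ', mem_bddMF_of_fixed hW ha' hf'⟩
  let x : Fld₀ (wBase A) E q m' := ⟨toFld E bx, toFld_mem_fld₀ hW hco hi' ha' hf'⟩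
  have hr0' : qbarToC r ≠ 0 := (map_ne_zero_iff _ qbarToC_injective).mpr hr0
  have hφ'0 : φ' ≠ 0 := fun h0 => hφ0 (Subtype.ext (funext fun τ =>
    (mul_eq_zero.mp (congrFun (congrArg (fun w : MF (q * m') => (w : ℍ → ℂ)) h0) τ)).resolve_left
      hr0'))
  have hx0 : x ≠ 0 := fun h0 => hφ'0 (congrArg Subtype.val
    (toFld_injective E ((congrArg Subtype.val h0).trans (map_zero _).symm) : bx = 0))
  -- its series at infinity
  let g' := expand (q * m') (NeZero.ne _) g
  have hg' : HasQSeries (q * m') (φ' : ℍ → ℂ) (seriesToC g') := by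
    have h1 := hg.refine_width one_pos (q * m') (NeZero.ne _)
    rw [one_mul] at h1
    rw [hφc, seriesToC_eq_lmap, lmap_expand]
    exact h1
  have hy' : HasRed A g' (expand (q * m') (NeZero.ne _) (y : LaurentSeries (κ A))) := hy.expand _ _
  have hY0 : expand (q * m') (NeZero.ne _) (y : LaurentSeries (κ A)) ≠ 0 :=
    (map_ne_zero_iff _ (GalRep.expand_injective _ _)).mpr fun h => hy0 (Subtype.ext h)
  have hser : serAlg (q * m') φ' = seriesToC g' :=
    (hasQSeries_serHom φ').unique (NeZero.pos _) hg'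
  have hgfix : ∀ i, FixedConst A (g.coeff i) := fun i σ hσ => by
    have h := inertiaFix_iff.mp hf' σ hσ
    rw [hser, lmap_seriesToC (liftAut_spec σ)] at h
    have h2 := congrArg (fun f : LaurentSeries ℚb => f.coeff (((q * m' : ℕ) : ℤ) * i))
      (seriesToC_injective h)
    simp only [seriesConj_eq_lmap, lmap_coeff, g', expand_coeff_mul] at h2
    exact h2
  -- powers of constants on every component
  have hscal : ∃ r₁ : ℚb, r₁ ≠ 0 ∧ FixedConst A r₁ ∧ A.valuation (r₁ ^ p / r) = 1 := by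
    obtain ⟨r₁, Φ, hr1, hr1f, hΦ, b, hb, rb⟩ := hr 1
    refine ⟨r₁, hr1, hr1f, valuation_eq_one_of_hasRed (div_ne_zero (pow_ne_zero _ hr1) hr0)
      (hy.expand (q * m) (NeZero.ne _))
      ((map_ne_zero_iff _ (GalRep.expand_injective _ _)).mpr fun h => hy0 (Subtype.ext h))
      (Y := Φ) ?_ hΦ⟩
    have h1 := (hg.refine_width one_pos (q * m) (NeZero.ne _)).smul (qbarToC (r₁ ^ p / r))
    rw [one_mul] at h1
    have h2 : b = HahnSeries.C (r₁ ^ p / r) * expand (q * m) (NeZero.ne _) g := by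
      refine seriesToC_injective (hb.unique (NeZero.pos _) ?_)
      rw [seriesToC_eq_lmap (HahnSeries.C _ * _), map_mul, lmap_C, lmap_expand, ← seriesToC_eq_lmap]
      refine h1.congr (.of_forall fun τ => ?_)
      show qbarToC (r₁ ^ p / r) * (qbarToC r * (φ : ℍ → ℂ) τ) = _
      rw [one_smul, ← mul_assoc, ← map_mul, div_mul_cancel₀ _ hr0]
      rfl
    exact h2 ▸ rb
  obtain ⟨r₁, hr1, hr1f, hu1⟩ := hscal
  obtain ⟨t, ht, hlift⟩ := exists_expand_redAt (A := A) hd
  have huA : r₁ ^ p / r ∈ A := (A.valuation_le_one_iff _).mp hu1.le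
  have hcomp : ∀ δ : SL(2, ℤ), ∃ T : Fld₀ (wBase A) E q m', IsU (comp hπ δ) (T ^ p / x) := by
    intro δ
    obtain ⟨r₂, Φ, hr2, hr2f, hΦ, hΦr⟩ := hr δ
    let X : MF (q * m') := cMF (q * m') (r₂ ^ p) * liftLvl hd φ
    let bX : bddMF E := ⟨X, mem_bddMF_of_fixed hW ((algMF_cMF _).mul (algMF_liftLvl hd ha))
      (inertiaFix_cMF_mul (hr2f.pow p) (inertiaFix_liftLvl hd hf))⟩
    have hc : FixedConst A (r₁ / r₂) := by rw [div_eq_mul_inv]; exact hr1f.mul hr2f.inv
    let bT : bddMF E := ⟨cMF (q * m') (r₁ / r₂), mem_bddMF_of_fixed hW (algMF_cMF _)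
      (inertiaFix_cMF hc)⟩
    let T : Fld₀ (wBase A) E q m' := ⟨toFld E bT,
      toFld_mem_fld₀ hW hco (inv0_cMF _ _) (algMF_cMF _) (inertiaFix_cMF hc)⟩
    have huf : FixedConst A (r₁ ^ p / r) := by
      rw [div_eq_mul_inv]; exact (hr1f.pow p).mul hrf.inv
    let bU : bddMF E := ⟨cMF (q * m') (r₁ ^ p / r), mem_bddMF_of_fixed hW (algMF_cMF _)
      (inertiaFix_cMF huf)⟩
    have hXU : IsU (gaussP E hπ δ) (toFld E bX) :=
      (rs_eq_of_redAt hψ hπ (X := bX) (Y := bX) (hlift hΦr) (hlift hΦr)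
        ((map_ne_zero_iff _ (GalRep.expand_injective _ _)).mpr hΦ)).1
    have hUU : IsU (gaussP E hπ δ) (toFld E bU) :=
      (rs_eq_of_redAt hψ hπ (X := bU) (Y := bU) (redAt_cMF huA δ) (redAt_cMF huA δ)
        ((map_ne_zero_iff _ HahnSeries.C_injective).mpr fun h0 =>
          hu1.not_lt (A.mem_nonunits_iff.mp (A.coe_mem_nonunits_iff.mpr
            ((IsLocalRing.residue_eq_zero_iff _).mp h0))))).1
    refine ⟨T, (isU_comap_iff _ _).mpr ?_⟩
    have key : bT ^ p * bX = bx * bU := Subtype.ext (Subtype.ext (funext fun τ => by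
      show qbarToC (r₁ / r₂) ^ p * (qbarToC (r₂ ^ p) * (φ : ℍ → ℂ) τ) =
        qbarToC r * (φ : ℍ → ℂ) τ * qbarToC (r₁ ^ p / r)
      have : (r₁ / r₂) ^ p * r₂ ^ p = r * (r₁ ^ p / r) := by
        rw [div_pow, div_mul_cancel₀ _ (pow_ne_zero _ hr2), mul_div_cancel₀ _ hr0]
      rw [← mul_assoc, ← map_pow, ← map_mul, this, map_mul]
      ring))
    have key' := congrArg (toFld E) key
    rw [map_mul, map_pow, map_mul] at key'
    have e : ((T ^ p / x : Fld₀ (wBase A) E q m') : Fld E) = toFld E bU / toFld E bX := by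
      show toFld E bT ^ p / toFld E bx = _
      rw [div_eq_div_iff (fun h0 => hx0 (Subtype.ext h0)) hXU.ne_zero, key']
      exact mul_comm _ _
    rw [Subfield.subtype_apply, e]
    exact hUU.div hXU
  -- roots at the points of the chart of `1/j`
  have hqM : q ∣ q * m' := dvd_mul_right q m'
  have hmM : m' ∣ q * m' := dvd_mul_left m' q
  have hw₁ := coord_inv_jF (W := wBase A) (E := E) (q := q) (m := m') hπ
  have hf₁ := chartFibre_two hqW hqM hmM hqm' hpts.1 hw₁ hpts.2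
  have hq0 := natCast_fld₀_ne_zero (W := wBase A) (E := E) (q := q) (m := m') hqW
  have hpF : IsPowFun p φ' := by
    obtain ⟨s₀, hs₀⟩ := IsAlgClosed.exists_pow_nat_eq (qbarToC r) hp.pos
    obtain ⟨G, hG, hGe, hGs⟩ := isPowFun_of_rep hF ((isLevel_gamma0 (q * m)).of_dvd hd)
      (φ := liftLvl hd φ) hφ
    refine IsPowFun.mul ⟨fun _ => s₀, mdifferentiable_const, funext fun τ => hs₀.symm,
      fun δ => ⟨_, HasQSeries.const _ s₀⟩⟩ ⟨G, hG, hGe, hGs⟩
  have hone : IsPowFun p ((1 : bddMF E) : MF (q * m')) :=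
    ⟨fun _ => 1, mdifferentiable_const, funext fun τ => (one_pow _).symm,
      fun δ => ⟨_, HasQSeries.const _ 1⟩⟩
  haveI := hw₁.isFractionRing
  have hu := fun i => natCast_mem_twoP (W := wBase A) (E := E) (q := q) (m := m') (hπ := hπ) hqW i
  have hcmax := center_two_not_isMaximal hqW hqM hmM hqm' hpts.1 hw₁ hpts.2
  have hr₁ := Models.hasRootAt_all hf₁ hpts.2 hu hcmax hq0 hp.pos hx0 (fun i => hcomp _)
    (fun P hP hP0 hPq => by
      haveI := hP
      exact hasRootAt_of_pow hx0 (hhor _ (Or.inr rfl) P hP hP0 hPq x hx0 bx 1 hpF hone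
        (by rw [map_one, div_one])) hp.one_lt hD)
  exact ⟨bx, x.2, hφc, hser, hgfix, hx0, fun 𝔪 h𝔪 => hr₁ 𝔪 h𝔪⟩

end Fermat.Agent.R59
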