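/-
S59, unit F1 at `p ∣ m`: at the places over infinity the orders of the reduction of the power of a
Kummer function are divisible by `p` when `p` divides the level exactly.

The order at a place is measured by the series at a cusp over its centre.  Where the width is prime to
`p` the parabolic elements fix the Kummer function, so the order of the root at the point is divisible
by `p`; elsewhere `j (p τ)` shows that the order of `j` itself is.
-/
import Fermat.Agent.R59.Mazur.PLevel.CuspRatio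
import Fermat.Agent.R59.Mazur.PLevel.Witness
import Fermat.Agent.R59.Mazur.PLevel.InfComp
import Fermat.Agent.R59.Mazur.PLevel.Root
import Fermat.Agent.R59.Mazur.PLevel.CuspPoint
import Fermat.Agent.R59.Mazur.PLevel.CuspCases

set_option autoImplicit false
set_option linter.style.haveILetI false
set_option linter.unusedSectionVars false

noncomputable section

namespace Fermat.Agent.R59

open UpperHalfPlane CongruenceSubgroup IsLocalRing ModularCurve AlgebraicCurve
open Fermat.Agent.LL.Mazur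
open Fermat.Agent.GalRep Fermat.Agent.GalRep.Level Fermat.Agent.GalRep.Semistable
open Fermat.Agent.ModField
open Fermat.Agent.NewVec
open Fermat.Agent.MCurve.Spec (redFld C_mem_redFld)
open Fermat.Agent.GalRep.InertiaBase (rBase rFld rUnif embR rTop wTop totRam embO_K_le
  toLS_algebraMap_top rBase_dvr)
open Fermat.Agent.GalRep.Model (chartRing zetaC SeriesField)
open Fermat.Agent.Models (HasRootAt IsU)
open Fermat.Agent.CuspPt (cB serB evc)
open scoped MatrixGroups Manifold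

local notation "ℚb" => AlgebraicClosure ℚ
local notation "κ" A:max => IsLocalRing.ResidueField A
variable {A : ValuationSubring (AlgebraicClosure ℚ)} {p q m m' : ℕ} [Fact p.Prime] [Fact q.Prime]
  [NeZero p] [NeZero q] [NeZero m] [NeZero m']

set_option maxHeartbeats 16000000 in
set_option synthInstance.maxHeartbeats 400000 in
/-- Over infinity the orders of the reduction are divisible by `p`. -/
theorem redOrdInfDvd_pLevel (hA : A.LiesOverPrime q) (hqp : q ≠ p) (hqm' : ¬ q ∣ m') (hm3 : 3 ≤ m')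
    (Lv : Fermat.Agent.GalRep.Model.Lev m') (hmm : m ∣ m') (hpts : ChartsSemi A q m') {D : ℕ}
    (hD : D.Coprime p)
    (hhor : ∀ [IsDiscreteValuationRing (oBase A (q * m'))],
      HorRoots (wBase A) (embO A (q * m')) q m' p D)
    (hpm' : p ∣ m') (hp2 : ¬ p * p ∣ m') :
    RedOrdInfDvd A p q m := by
  intro χ F φ hF hφ hφ0 hi ha hf hr r hr0 hrf g hg y hy hy0 Q hjQ
  classical
  have hq : q.Prime := Fact.out
  have hp : p.Prime := Fact.out
  have hqm : ¬ q ∣ m := fun h => hqm' (h.trans hmm)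
  haveI := GalRep.charP_residue (A := A) hq hA
  obtain ⟨hWdvr, hqW, hWac⟩ := wBase_props A hq hA
  haveI := hWdvr
  haveI := hWac
  obtain ⟨hOdvr, hπmax, hπ⟩ := oBase_dvr (A := A) (M := q * m') hq hA rfl hqm'
  haveI := hOdvr
  haveI := finite_oBase (A := A) (M := q * m') hq hA rfl hqm'
  haveI : Fact (IsUnit (m' : A)) := ⟨by
    by_contra h
    have h1 : residue A (m' : A) = 0 :=
      (residue_eq_zero_iff _).mpr ((IsLocalRing.mem_maximalIdeal _).mpr h)
    exact hqm' ((CharP.cast_eq_zero_iff (κ A) q m').mp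
      ((map_natCast (residue A) m').symm.trans h1))⟩
  let E := embO A (q * m')
  have hd : q * m ∣ q * m' := mul_dvd_mul_left q hmm
  obtain ⟨bx, hx, hφc, hser, hgfix, hx0, hroot⟩ :=
    exists_root_chartInv hA hqm' hmm hpts hD hhor hπ hF hφ hφ0 hi ha hf hr hr0 hrf hg y hy hy0
  obtain ⟨res, ρW, hkerW, hcstW, hρjF, helem⟩ := exists_infComp hA hqm' Lv hpts hπ
  let x : Fld₀ (wBase A) E q m' := ⟨toFld E bx, hx⟩
  let P₀ := twoP (wBase A) E q m' hπ false
  have hqM : q ∣ q * m' := dvd_mul_right q m'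
  have hmM : m' ∣ q * m' := dvd_mul_left m' q
  have hw₁ := coord_inv_jF (W := wBase A) (E := E) (q := q) (m := m') hπ
  have hf₁ := chartFibre_two hqW hqM hmM hqm' hpts.1 hw₁ hpts.2
  have hq0 := natCast_fld₀_ne_zero (W := wBase A) (E := E) (q := q) (m := m') hqW
  haveI := hw₁.isFractionRing
  have hu := fun i => natCast_mem_twoP (W := wBase A) (E := E) (q := q) (m := m') (hπ := hπ) hqW i
  have hcmax := center_two_not_isMaximal hqW hqM hmM hqm' hpts.1 hw₁ hpts.2
  obtain ⟨hxP, hρx⟩ := helem bx hx g _ hser hy (fun h => hy0 (Subtype.ext h)) hgfix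
  have hpM : p ∣ q * m' := hpm'.mul_left q
  have hjser : serAlg (q * m') ((jpB E hpM : bddMF E) : MF (q * m')) =
      seriesToC (expand (q * m') (NeZero.ne _)
        (expand p (NeZero.ne p) (jqModC ℚb))) := by
    show serAlg (q * m') (jpMF hpM) = _
    rw [serAlg_jpMF, seriesToC_eq_lmap]
    simp only [lmap_expand, lmap_jqModC]
  have hjred : HasRed A (expand p (NeZero.ne p) (jqModC ℚb))
      (expand p (NeZero.ne p) (jqModC (κ A))) := by
    refine HasRed.expand ?_ _ _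
    intro i
    rw [← lmap_jqModC (Int.castRingHom ℚb), ← lmap_jqModC (Int.castRingHom (κ A)), lmap_coeff,
      lmap_coeff]
    exact ⟨intCast_mem A _, map_intCast (residue A) _⟩
  have hjfix : ∀ i, FixedConst A ((expand p (NeZero.ne p) (jqModC ℚb)).coeff i) := fun i => by
    intro σ _
    rw [← lmap_jqModC (algebraMap ℚ ℚb), ← lmap_expand, lmap_coeff]
    exact σ.commutes _
  obtain ⟨hjP, hρjp⟩ := helem (jpB E hpM) (jpB_mem_fld₀ E (wBase A) q m' hpM hpm') _ _ hjser hjred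
    ((map_ne_zero_iff _ (GalRep.expand_injective _ _)).mpr fun h => by
      exact jqModC_ne_zero' (κ A) h) hjfix
  -- the place
  let ι₀ : modularFunctionFieldFullC (κ A) m →+* redFld m' A :=
    ((qExpand (κ A) m').comp (modularFunctionFieldFullC (κ A) m).val.toRingHom).codRestrict _
      fun z => MCurve.Spec.qExpand_mem_redFld_lev A Lv hmm hA hqm z.2
  obtain ⟨Wv, hWv⟩ := Models.exists_comap_eq ι₀ Q.toValuationSubring
  have hιc : ∀ c : κ A, (ι₀ (algebraMap (κ A) _ c) : LaurentSeries (κ A)) = HahnSeries.C c :=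
    fun c => by
    show qExpand (κ A) m' (algebraMap (κ A) (LaurentSeries (κ A)) c) = _
    rw [algebraMap_laurentSeries_eq_single, ← HahnSeries.C_apply, qExpand_C]
  have hcW : ∀ (o : wBase A) (ho : algebraMap (wBase A) (Fld₀ (wBase A) E q m') o ∈ P₀),
      ρW ⟨_, ho⟩ ∈ Wv := fun o ho => by
    rw [show ρW ⟨_, ho⟩ = ι₀ (algebraMap (κ A) _ (res o)) from
      Subtype.ext ((hcstW o ho).trans (hιc _).symm)]
    have := Q.algebraMap_mem' (res o)
    rw [← hWv] at this
    exact this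
  set jF : modularFunctionFieldFullC (κ A) m := MCurve.jFullC (κ A) m
  have hj0 : jF ≠ 0 := fun h => hjQ (h ▸ Q.toValuationSubring.zero_mem)
  set v := Wv.valuation
  obtain ⟨π₁, hπ1, hπ1o⟩ := MCurve.exists_ord_eq_one Q
  set V := v (ι₀ π₁)
  have hV0 : V ≠ 0 := (_root_.map_ne_zero v).mpr ((_root_.map_ne_zero ι₀).mpr hπ1)
  have hval : ∀ f : modularFunctionFieldFullC (κ A) m, f ≠ 0 → v (ι₀ f) = V ^ Q.ord f := by
    intro f hf0
    have hne : f * π₁ ^ (-Q.ord f) ≠ 0 := mul_ne_zero hf0 (zpow_ne_zero _ hπ1)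
    have h0 : Q.ord (f * π₁ ^ (-Q.ord f)) = 0 := by
      rw [Q.ord_mul hf0 (zpow_ne_zero _ hπ1), Q.ord_zpow, hπ1o]; ring
    have h1 := (MCurve.mem_iff_ord_nonneg Q hne).mpr h0.ge
    have h2 := (MCurve.mem_iff_ord_nonneg Q (inv_ne_zero hne)).mpr (by rw [Q.ord_inv, h0, neg_zero])
    rw [← hWv, ValuationSubring.mem_comap, ← Wv.valuation_le_one_iff] at h1 h2
    rw [map_inv₀, map_inv₀] at h2
    have h3 : v (ι₀ (f * π₁ ^ (-Q.ord f))) = 1 := le_antisymm h1 ((inv_le_one₀ (zero_lt_iff.mpr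
      ((_root_.map_ne_zero _).mpr ((_root_.map_ne_zero _).mpr hne)))).mp h2)
    rw [map_mul, map_mul, map_zpow₀, map_zpow₀, zpow_neg,
      mul_inv_eq_one₀ (zpow_ne_zero _ hV0)] at h3
    exact h3
  have hJ1 : 1 < v (ι₀ jF) := not_le.mp fun h => hjQ (by
    rw [← hWv, ValuationSubring.mem_comap]; exact (Wv.valuation_le_one_iff _).mp h)
  have hV1 : V ≠ 1 := fun h => by
    have := hval jF hj0
    rw [h, one_zpow] at this
    exact hJ1.ne' this
  -- the centre on the chart of `1/j`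
  set B := chartRing (wBase A) (jF₀ (wBase A) E q m')⁻¹
  have hwB : (jF₀ (wBase A) E q m')⁻¹ ∈ B := self_mem_chart _
  let jh : B →+* P₀ := B.val.toRingHom.codRestrict P₀.toSubring fun b => hf₁.le false _ b.2
  let ρB : B →+* redFld m' A := ρW.comp jh
  have hwP : jF₀ (wBase A) E q m' ∈ P₀ :=
    (chartFibre_two hqW hqM hmM hqm' hpts.1
      (coord_jF (W := wBase A) (E := E) (q := q) (m := m') hπ) hpts.1).le false _ (self_mem_chart _)
  have hρj : ρW ⟨_, hwP⟩ = ι₀ jF := Subtype.ext (hρjF hwP)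
  have hρw : ρB ⟨_, hwB⟩ = (ι₀ jF)⁻¹ := by
    refine eq_inv_of_mul_eq_one_left ?_
    rw [← hρj, RingHom.comp_apply, ← map_mul, ← map_one ρW]
    exact congrArg ρW (Subtype.ext (inv_mul_cancel₀ (jF₀_ne_zero _ _ _ _)))
  have hvw : v (ρB ⟨_, hwB⟩) = V ^ (-Q.ord jF) := by
    rw [hρw, map_inv₀, hval jF hj0, zpow_neg]
  have hvw1 : v (ρB ⟨_, hwB⟩) < 1 := by
    rw [hρw, map_inv₀]; exact inv_lt_one_of_one_lt₀ hJ1
  have hρw0 : ρB ⟨_, hwB⟩ ≠ 0 := by
    rw [hρw]; exact inv_ne_zero ((_root_.map_ne_zero ι₀).mpr hj0)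
  obtain ⟨𝔪, h𝔪, hmem, hunit⟩ := exists_centre hf₁ (fun b hb => mem_chart_iff.mp hb) hwB false ρW
    hkerW Wv hcW (fun hm => (Wv.valuation_le_one_iff _).mp hvw1.le)
    ⟨⟨_, hwB⟩, hρw0, hvw1⟩
  haveI := h𝔪
  have hw𝔪 : (⟨_, hwB⟩ : B) ∈ 𝔪 := (hmem _).mpr hvw1
  have hρq : ρB (algebraMap (wBase A) B (q : wBase A)) = 0 := by
    refine Subtype.ext ((hcstW _ (hf₁.le false _ (B.algebraMap_mem _))).trans ?_)
    rw [map_natCast res, CharP.cast_eq_zero, map_zero]
    rfl
  have hq𝔪 : algebraMap (wBase A) B (q : wBase A) ∈ 𝔪 := by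
    rw [hmem]
    show v (ρB (algebraMap (wBase A) B (q : wBase A))) < 1
    rw [hρq, map_zero]
    exact zero_lt_one
  -- a cusp over the centre
  have hgen := adjoin_eq_top (A := A) (M := q * m') hq hA rfl hqm'
  have hζ' := exists_wBase_pow (A := A) (M := q * m') hq hA rfl hqm'
  have hs := setup_of_base (O := oBase A (q * m')) (W := wBase A) (q := q) (m := m') (M := q * m')
    hqW rfl hqm' hm3
  have hsm := isSmoothPoint_cusp (E := E) hqW hgen hζ' rfl hqm' hm3 𝔪 hq𝔪 hw𝔪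
  obtain ⟨δ, hrm, hrq, hrw0, hpow⟩ := exists_cusp_ratio hA hqm' hm3 hπ 𝔪 hq𝔪 hwB hw𝔪
  let rB : B →+* PowerSeries (ResidueField (oBase A (q * m'))) :=
    (resB E δ).comp (toB (wBase A) E q m')
  haveI : IsNoetherianRing B := hf₁.noetherian
  have hpow' : po (rB ⟨_, hwB⟩) = q * m' := hpow
  have hratio : ∀ b : B, ρB b ≠ 0 →
      rB b ≠ 0 ∧ v (ρB b) ^ (q * m') = v (ρB ⟨_, hwB⟩) ^ po (rB b) := fun b hb => by
    have := ratio_of_smooth hsm ρB Wv hρq (fun b => hmem b) (fun b hb => hunit b hb) rB hrq hrm hρw0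
      hw𝔪 hrw0 hb
    rw [hpow'] at this
    exact this
  -- orders at the place from orders at the cusp
  have hfrac : ∀ z : P₀, ∃ c d : B, ρB d ≠ 0 ∧
      (z : Fld₀ (wBase A) E q m') * (d : Fld₀ (wBase A) E q m') = c := fun z => by
    obtain ⟨c, d, hd', hcd⟩ := Models.exists_frac hf₁ hpts.2 hu hcmax hq0 z.2
    exact ⟨c, d, fun h => hd' (Models.mem_center.mpr ((hkerW _).mp h)), hcd⟩
  have hkey : ∀ (z : P₀) (f : modularFunctionFieldFullC (κ A) m), f ≠ 0 → ρW z = ι₀ f →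
      ∀ c d : B, ρB d ≠ 0 → (z : Fld₀ (wBase A) E q m') * (d : Fld₀ (wBase A) E q m') = c →
        rB c ≠ 0 ∧ rB d ≠ 0 ∧ Q.ord f * (q * m' : ℕ) =
          -Q.ord jF * ((po (rB c) : ℤ) - po (rB d)) := by
    intro z f hf0 hzf c d hd' hcd
    have e : ρB c = ρW z * ρB d := by
      rw [RingHom.comp_apply, RingHom.comp_apply, ← map_mul]
      exact congrArg ρW (Subtype.ext hcd.symm)
    have hc' : ρB c ≠ 0 := by
      rw [e, hzf]
      exact mul_ne_zero ((_root_.map_ne_zero ι₀).mpr hf0) hd'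
    obtain ⟨hc0, hc1⟩ := hratio c hc'
    obtain ⟨hd0, hd1⟩ := hratio d hd'
    refine ⟨hc0, hd0, ?_⟩
    rw [e, hzf, map_mul, mul_pow, hd1, hvw, hval f hf0, ← zpow_natCast, ← zpow_natCast,
      ← zpow_natCast, ← zpow_mul, ← zpow_mul, ← zpow_mul, ← zpow_add₀ hV0] at hc1
    have := zpow_right_injective₀ (zero_lt_iff.mpr hV0) hV1 hc1
    linear_combination this
  have hρxι : ρW ⟨_, hxP⟩ = ι₀ y := Subtype.ext hρx
  obtain ⟨cx, dx, hdx, hcdx⟩ := hfrac ⟨_, hxP⟩
  obtain ⟨hcx0, hdx0, hoy⟩ := hkey _ y hy0 hρxι cx dx hdx hcdx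
  -- the root at the point
  obtain ⟨z, a, b, ha', hb', he⟩ := hroot 𝔪 h𝔪
  have hfv : P₀.valuation x = 1 :=
    le_antisymm ((ValuationSubring.valuation_le_one_iff _ _).mpr hxP) (not_lt.mp fun h' => by
      have := (hkerW ⟨x, hxP⟩).mpr ((ValuationSubring.mem_nonunits_iff P₀).mpr h')
      rw [hρxι] at this
      exact hy0 ((map_eq_zero ι₀).mp this))
  have hne : ∀ c : B, c ∉ 𝔪 → P₀.valuation (c : Fld₀ (wBase A) E q m') = 1 := fun c hc =>
    le_antisymm ((ValuationSubring.valuation_le_one_iff _ _).mpr (jh c).2) (not_lt.mp fun h' => by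
      refine hc ((hmem c).mpr ?_)
      show v (ρW (jh c)) < 1
      rw [(hkerW (jh c)).mpr ((ValuationSubring.mem_nonunits_iff P₀).mpr h'), map_zero]
      exact zero_lt_one)
  have he' : (b : Fld₀ (wBase A) E q m') * z ^ p = (a : Fld₀ (wBase A) E q m') * x := he
  have hzv : P₀.valuation z = 1 := by
    have h1 := congrArg P₀.valuation he'
    rw [map_mul, map_mul, map_pow, hne b hb', hne a ha', hfv, one_mul, one_mul] at h1
    exact (pow_eq_one_iff_of_nonneg zero_le hp.ne_zero).mp h1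
  have hzP : z ∈ P₀ := (ValuationSubring.valuation_le_one_iff _ _).mp hzv.le
  obtain ⟨c, d, hd', hcd⟩ := hfrac ⟨z, hzP⟩
  have hc' : ρB c ≠ 0 := by
    rw [RingHom.comp_apply, show jh c = ⟨z, hzP⟩ * jh d from Subtype.ext hcd.symm, map_mul]
    refine mul_ne_zero (fun h => ?_) hd'
    have h2 := (hkerW ⟨z, hzP⟩).mp h
    rw [ValuationSubring.mem_nonunits_iff, hzv] at h2
    exact lt_irrefl _ h2
  have hc0 := (hratio c hc').1
  have hd0 := (hratio d hd').1
  have heB : b * c ^ p * dx = a * cx * d ^ p := Subtype.ext (by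
    push_cast
    rw [← hcd, ← hcdx, mul_pow]
    linear_combination ((d : Fld₀ (wBase A) E q m') ^ p * (dx : Fld₀ (wBase A) E q m')) * he')
  have hconst : ∀ u : B, u ∉ 𝔪 → PowerSeries.constantCoeff (rB u) ≠ 0 := fun u hu h =>
    hu ((hrm u).mpr h)
  have hab : (po (rB cx) : ℤ) - po (rB dx) = p * ((po (rB c) : ℤ) - po (rB d)) := by
    have hb0 : rB b ≠ 0 := fun h => hconst b hb' (by rw [h, map_zero])
    have ha0 : rB a ≠ 0 := fun h => hconst a ha' (by rw [h, map_zero])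
    have h1 := congrArg (fun u : B => po (rB u)) heB
    simp only [map_mul, map_pow] at h1
    rw [po_mul (mul_ne_zero hb0 (pow_ne_zero _ hc0)) hdx0, po_mul hb0 (pow_ne_zero _ hc0),
      po_pow hc0, po_of_const (hconst b hb'), po_mul (mul_ne_zero ha0 hcx0) (pow_ne_zero _ hd0),
      po_mul ha0 hcx0, po_pow hd0, po_of_const (hconst a ha')] at h1
    have h2 : ((0 + p * po (rB c) + po (rB dx) : ℕ) : ℤ) =
        ((0 + po (rB cx) + p * po (rB d) : ℕ) : ℤ) := congrArg (Nat.cast : ℕ → ℤ) h1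
    push_cast at h2
    linear_combination -h2
  rw [hab] at hoy
  have hpp : Prime (p : ℤ) := Nat.prime_iff_prime_int.mp hp
  obtain ⟨M₁, hM₁⟩ := hpM
  have hpM₁ : ¬ (p : ℤ) ∣ M₁ := fun h => by
    have h1 : p * p ∣ q * m' := hM₁ ▸ Nat.mul_dvd_mul_left p (Int.natCast_dvd_natCast.mp h)
    exact hp2 ((Nat.Coprime.mul_left ((Nat.coprime_primes hp hq).mpr hqp.symm)
      ((Nat.coprime_primes hp hq).mpr hqp.symm)).dvd_of_dvd_mul_left h1)
  -- it suffices that `p` divide the order at the cusp of the root, or that of `j`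
  have hM₁' : ((q * m' : ℕ) : ℤ) = p * (M₁ : ℤ) := by rw [← Nat.cast_mul]; exact congrArg Nat.cast hM₁
  suffices hdiv : (p : ℤ) ∣ -Q.ord jF * ((po (rB c) : ℤ) - po (rB d)) by
    rw [hM₁'] at hoy
    have h1 : Q.ord y * M₁ = -Q.ord jF * ((po (rB c) : ℤ) - po (rB d)) :=
      mul_left_cancel₀ (Int.natCast_ne_zero.mpr hp.ne_zero) (by linear_combination hoy)
    exact (hpp.dvd_or_dvd (h1 ▸ hdiv)).resolve_right hpM₁
  by_cases hc10 : p ∣ m ∧ ¬ (p : ℤ) ∣ δ 1 0
  · -- the order of `j` is divisible by `p`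
    obtain ⟨hpm, hc10⟩ := hc10
    refine Dvd.dvd.mul_right ?_ _
    obtain ⟨cj, dj, hdj, hcdj⟩ := hfrac ⟨_, hjP⟩
    let fj : modularFunctionFieldFullC (κ A) m :=
      ⟨qExpand (κ A) p (jqModC (κ A)), jqModCd_mem_full (κ A) m hpm⟩
    have hfj0 : fj ≠ 0 := fun h => jqModC_ne_zero' (κ A)
      (qExpand_injective p ((congrArg Subtype.val h).trans (map_zero _).symm))
    have hρfj : ρW ⟨_, hjP⟩ = ι₀ fj := Subtype.ext (hρjp.trans (by
      rw [← MCurve.qExpand_eq_expand p]; rfl))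
    obtain ⟨hcj0, hdj0, hoj⟩ := hkey _ fj hfj0 hρfj cj dj hdj hcdj
    have h6 : q * m' / p + po (rB cj) = po (rB dj) :=
      po_jpB_shift E (hpm'.mul_left q) hc10 (u := toB (wBase A) E q m' cj)
        (w := toB (wBase A) E q m' dj)
        (congrArg (fun u : Fld₀ (wBase A) E q m' => (u : Fld E)) hcdj).symm hcj0 hdj0
    have he'' : q * m' / p = M₁ := by rw [hM₁, Nat.mul_div_cancel_left _ hp.pos]
    rw [← h6, he'', hM₁', Nat.cast_add] at hoj
    refine ⟨-Q.ord fj, mul_right_cancel₀ (b := (M₁ : ℤ)) ?_ (by linear_combination hoj)⟩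
    intro h0
    exact hpM₁ (h0 ▸ dvd_zero _)
  · -- the width is prime to `p`
    refine Dvd.dvd.mul_left ?_ _
    have hp_q : ¬ p ∣ q := fun h => hqp ((Nat.prime_dvd_prime_iff_eq hp hq).mp h).symm
    obtain ⟨k, hpk, hT⟩ : ∃ k : ℕ, ¬ (p : ℤ) ∣ k ∧
        δ * ModularGroup.T ^ (k : ℤ) * δ⁻¹ ∈ Gamma0 (q * m) := by
      by_cases hpm : p ∣ m
      · have hc : (p : ℤ) ∣ δ 1 0 := not_not.mp fun h => hc10 ⟨hpm, h⟩
        obtain ⟨m₁, hm₁⟩ := hpm
        refine ⟨q * m₁, fun h => ?_, conj_T_pow_mem_gamma0 δ _ ?_⟩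
        · rcases hp.dvd_mul.mp (Int.natCast_dvd_natCast.mp h) with h | h
          · exact hp_q h
          · exact hp2 ((hm₁ ▸ Nat.mul_dvd_mul_left p h).trans hmm)
        · rw [show ((q * m : ℕ) : ℤ) = ((q * m₁ : ℕ) : ℤ) * p by rw [hm₁]; push_cast; ring]
          exact mul_dvd_mul_left _ (hc.mul_right _)
      · exact ⟨q * m, fun h => (hp.dvd_mul.mp (Int.natCast_dvd_natCast.mp h)).elim hp_q hpm,
          conj_T_pow_mem_gamma0 δ _ (dvd_mul_right _ _)⟩
    have hr0' : qbarToC r ≠ 0 := (map_ne_zero_iff _ qbarToC_injective).mpr hr0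
    have h1 : (b : Fld₀ (wBase A) E q m') * (c : Fld₀ (wBase A) E q m') ^ p =
        (a : Fld₀ (wBase A) E q m') * x * (d : Fld₀ (wBase A) E q m') ^ p := by
      rw [← hcd, mul_pow]
      linear_combination ((d : Fld₀ (wBase A) E q m') ^ p) * he'
    have h2 := congrArg (fun u : Fld₀ (wBase A) E q m' => (u : Fld E)) h1
    simp only [Subfield.coe_mul, SubmonoidClass.coe_pow] at h2
    have h3 := dvd_width_po E hs hd hF hr0' (bx := bx)
      (by rw [hφc, hφ]; rfl) hT (a := toB (wBase A) E q m' a) (b := toB (wBase A) E q m' b)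
      (c := toB (wBase A) E q m' c) (d := toB (wBase A) E q m' d)
      (hconst a ha') (hconst b hb') hc0 hd0 h2
    exact (hpp.dvd_or_dvd ((Int.natCast_dvd_natCast.mpr hpm').trans h3)).resolve_left hpk

end Fermat.Agent.R59
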